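import Mathlib
import Fermat.Statements.S23

/-!
# S23: basic definitions for the Galois stability argument
-/

set_option autoImplicit false

open UpperHalfPlane ModularForm CongruenceSubgroup SlashInvariantForm
open scoped MatrixGroups ModularForm Manifold

namespace Fermat.Agent.S23

noncomputable section

/-- `F` is (the underlying function of) a level one modular form of weight `w`. -/
def IsLevelOne (w : ℤ) (F : ℍ → ℂ) : Prop := ∃ c : ModularForm 𝒮ℒ w, ⇑c = F

/-- `F` is (the underlying function of) a level one cusp form of weight `w`. -/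
def IsLevelOneCusp (w : ℤ) (F : ℍ → ℂ) : Prop := ∃ c : CuspForm 𝒮ℒ w, ⇑c = F

/-- The `i`-th elementary symmetric function of the `SL(2,ℤ)`-translates of `y`. -/
def esymmFun (N : ℕ) [NeZero N] {F : Type*} [FunLike F ℍ ℂ] {w : ℤ}
    [SlashInvariantFormClass F (Gamma0 N : Subgroup (GL (Fin 2) ℝ)) w] (y : F) (i : ℕ) :
    ℍ → ℂ :=
  fun z => ((@Finset.univ
      (𝒮ℒ ⧸ (Subgroup.subgroupOf (Gamma0 N : Subgroup (GL (Fin 2) ℝ)) 𝒮ℒ))
      (Fintype.ofFinite _)).val.map (fun q => quotientFunc y q z)).esymm i

end

end Fermat.Agent.S23
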