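import Mathlib
import Fermat.Statements.S23

/-!
# S23, part 1: level one modular forms are stable under conjugation of q-expansion coefficients
-/

set_option autoImplicit false

open UpperHalfPlane ModularForm CongruenceSubgroup EisensteinSeries
open scoped MatrixGroups ModularForm

namespace Fermat.Agent.S23

noncomputable section

/-- `E_k` has rational `q`-expansion, hence is fixed by any ring endomorphism of `ℂ`. -/
theorem map_qExpansion_E (σ : ℂ →+* ℂ) {k : ℕ} (hk : 3 ≤ k) (hk2 : Even k) :
    (qExpansion 1 (E hk)).map σ = qExpansion 1 (E hk) := by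
  ext m
  rw [PowerSeries.coeff_map, E_qExpansion_coeff hk hk2]
  split_ifs with h
  · simp
  · simp only [map_mul, map_neg, map_div₀, map_natCast, map_ratCast, map_ofNat]

theorem qExpansion_discriminant_eq :
    qExpansion 1 (ModularForm.discriminant) =
      (1 / 1728 : ℂ) • (qExpansion 1 E₄ ^ 3 - qExpansion 1 E₆ ^ 2) := by
  have h : (ModularForm.discriminant : ℍ → ℂ) =
      (1 / 1728 : ℂ) • ⇑((ModularForm.mcast (by decide) (E₄.pow 3) : ModularForm 𝒮ℒ 12) -
        (ModularForm.mcast (by decide) (E₆.pow 2) : ModularForm 𝒮ℒ 12)) := by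
    ext z
    simp only [Pi.smul_apply, smul_eq_mul, sub_apply, coe_mcast, coe_pow,
      Pi.pow_apply]
    rw [discriminant_eq_E₄_cube_sub_E₆_sq z]
    ring
  rw [h, ModularForm.qExpansion_smul one_pos one_mem_strictPeriods_SL, FunLike.coe_sub,
    ModularForm.qExpansion_sub one_pos one_mem_strictPeriods_SL]
  simp only [coe_mcast]
  rw [ModularForm.qExpansion_pow one_pos one_mem_strictPeriods_SL,
    ModularForm.qExpansion_pow one_pos one_mem_strictPeriods_SL]

theorem map_qExpansion_discriminant (σ : ℂ →+* ℂ) :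
    (qExpansion 1 ModularForm.discriminant).map σ = qExpansion 1 ModularForm.discriminant := by
  rw [qExpansion_discriminant_eq]
  have h4 := map_qExpansion_E σ (k := 4) (by norm_num) ⟨2, rfl⟩
  have h6 := map_qExpansion_E σ (k := 6) (by norm_num) ⟨3, rfl⟩
  have e4 : (E₄ : ℍ → ℂ) = E (k := 4) (by norm_num) := rfl
  have e6 : (E₆ : ℍ → ℂ) = E (k := 6) (by norm_num) := rfl
  rw [e4, e6, PowerSeries.smul_eq_C_mul, map_mul, PowerSeries.map_C, map_sub, map_pow, map_pow,
    h4, h6]
  have : σ (1 / 1728) = 1 / 1728 := by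
    rw [map_div₀, map_one, map_ofNat]
  rw [this]

/-- Level one modular forms are stable under conjugation of the `q`-expansion. -/
theorem levelOne_conj (σ : ℂ →+* ℂ) :
    ∀ (n : ℕ) (k : ℤ), k.toNat = n → ∀ c : ModularForm 𝒮ℒ k,
      ∃ c' : ModularForm 𝒮ℒ k, qExpansion 1 c' = (qExpansion 1 c).map σ := by
  intro n
  induction n using Nat.strong_induction_on with
  | _ n ih =>
  intro k hkn c
  -- trivial cases : `c = 0`
  have hzero : c = 0 → ∃ c' : ModularForm 𝒮ℒ k, qExpansion 1 c' = (qExpansion 1 c).map σ := by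
    rintro rfl
    exact ⟨0, by simp [qExpansion_zero]⟩
  rcases lt_or_ge k 0 with hk | hk
  · exact hzero (rank_zero_iff_forall_zero.mp (levelOne_neg_weight_rank_zero hk) c)
  rcases Int.even_or_odd k with hk2 | hk2
  swap
  · exact hzero (levelOne_odd_weight_eq_zero hk2 c)
  lift k to ℕ using hk
  have hk2' : Even k := by exact_mod_cast hk2
  rcases Nat.lt_or_ge k 3 with hk3 | hk3
  · -- `k = 0` or `k = 2`
    have : k = 0 ∨ k = 2 := by
      rcases hk2' with ⟨r, hr⟩
      omega
    rcases this with rfl | rfl
    · obtain ⟨a, ha⟩ := ModularFormClass.levelOne_weight_zero_const c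
      refine ⟨ModularForm.const (σ a), ?_⟩
      have h1 : ∀ b : ℂ, qExpansion 1 (Function.const ℍ b) = PowerSeries.C b := by
        intro b
        have : (Function.const ℍ b) = b • (1 : ℍ → ℂ) := by
          ext z; simp
        rw [this]
        have hA : AnalyticAt ℂ (cuspFunction 1 (1 : ℍ → ℂ)) 0 := by
          have := ModularFormClass.analyticAt_cuspFunction_zero
            (ModularForm.const (Γ := 𝒮ℒ) 1) one_pos one_mem_strictPeriods_SL
          rwa [ModularForm.coe_const] at this
        rw [qExpansion_smul hA, qExpansion_one, PowerSeries.smul_eq_C_mul, mul_one]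
      rw [ModularForm.coe_const, h1, ha, h1, PowerSeries.map_C]
    · exact hzero (rank_zero_iff_forall_zero.mp levelOne_weight_two_rank_zero c)
  · -- `k ≥ 4`
    set a0 : ℂ := (qExpansion 1 c).coeff 0 with ha0
    set g : ModularForm 𝒮ℒ k := c - a0 • E hk3 with hg
    have hgq : qExpansion 1 g = qExpansion 1 c - a0 • qExpansion 1 (E hk3) := by
      rw [hg, FunLike.coe_sub, ModularForm.qExpansion_sub one_pos one_mem_strictPeriods_SL,
        FunLike.coe_smul, ModularForm.qExpansion_smul one_pos one_mem_strictPeriods_SL]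
    have hg0 : (qExpansion 1 g).coeff 0 = 0 := by
      rw [hgq, map_sub, PowerSeries.coeff_smul, E_qExpansion_coeff_zero hk3 hk2', smul_eq_mul,
        mul_one, sub_self]
    have hgΔ := qExpansion_eq_qExpansion_discriminant_mul g hg0
    set c1 : ModularForm 𝒮ℒ ((k : ℤ) - 12) := CuspForm.discriminantEquiv (toCuspForm g hg0)
      with hc1
    obtain ⟨c1', hc1'⟩ := ih ((k : ℤ) - 12).toNat (by omega) ((k : ℤ) - 12) rfl c1
    refine ⟨σ a0 • E hk3 + ModularFormClass.modularForm (CuspForm.ofMulDiscriminant c1'), ?_⟩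
    have hmul : qExpansion 1 (ModularFormClass.modularForm (CuspForm.ofMulDiscriminant c1')) =
        qExpansion 1 ModularForm.discriminant * qExpansion 1 c1' := by
      have : (⇑(ModularFormClass.modularForm (CuspForm.ofMulDiscriminant c1')) : ℍ → ℂ) =
          (⇑CuspForm.discriminant * ⇑c1' : ℍ → ℂ) := by
        ext z
        simp [CuspForm.ofMulDiscriminant_apply]
      rw [this]
      exact ModularForm.qExpansion_mul_coe one_pos one_mem_strictPeriods_SL _ _
    have hc : qExpansion 1 c = a0 • qExpansion 1 (E hk3) +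
        qExpansion 1 ModularForm.discriminant * qExpansion 1 c1 := by
      rw [← hgΔ, hgq]; ring
    rw [FunLike.coe_add, ModularForm.qExpansion_add one_pos one_mem_strictPeriods_SL,
      FunLike.coe_smul, ModularForm.qExpansion_smul one_pos one_mem_strictPeriods_SL, hmul,
      hc1', hc, map_add, map_mul, map_qExpansion_discriminant, PowerSeries.smul_eq_C_mul,
      PowerSeries.smul_eq_C_mul, map_mul, PowerSeries.map_C, map_qExpansion_E σ hk3 hk2']

/-- Level one modular forms are stable under conjugation of the `q`-expansion. -/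
theorem exists_levelOne_conj (σ : ℂ →+* ℂ) {k : ℤ} (c : ModularForm 𝒮ℒ k) :
    ∃ c' : ModularForm 𝒮ℒ k, qExpansion 1 c' = (qExpansion 1 c).map σ :=
  levelOne_conj σ _ k rfl c

end

end Fermat.Agent.S23
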