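import Mathlib
import Fermat.Statements.S23
import Fermat.Agent.S23.Defs
import Fermat.Agent.S23.LevelOne
import Fermat.Prelude.Def_ModularForm_HeckeOperator
import Fermat.Prelude.Sol.S_ModularForm_heckeT_slash_eq_self_of_mem_Gamma0
import Fermat.Prelude.Sol.S_UpperHalfPlane_qCoeff_heckeT
import Fermat.Prelude.Thm_CongruenceSubgroup_one_mem_strictPeriods_Gamma0

/-!
# S23, part (G), T1: the form `Δ(Nz)` of level `Γ₀(N)`

`deltaN N = Δ ∣[12] diag(N, 1)`, i.e. `z ↦ N ^ 11 * Δ (N z)`.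
-/

set_option autoImplicit false
set_option linter.style.haveILetI false
set_option linter.unusedSimpArgs false

open UpperHalfPlane ModularForm CongruenceSubgroup SlashInvariantForm Filter Topology
open scoped MatrixGroups ModularForm Manifold

namespace Fermat.Agent.S23

noncomputable section

variable (N : ℕ) [NeZero N]

/-- The function `Δ ∣[12] diag(N, 1)`. -/
def deltaNFun : ℍ → ℂ := (ModularForm.discriminant : ℍ → ℂ) ∣[(12 : ℤ)] heckeDiagMatrix N

theorem discriminant_slash_mapGL (δ : SL(2, ℤ)) :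
    (ModularForm.discriminant : ℍ → ℂ) ∣[(12 : ℤ)] (Matrix.SpecialLinearGroup.mapGL ℝ δ) =
      ModularForm.discriminant :=
  SlashInvariantFormClass.slash_action_eq CuspForm.discriminant _ ⟨δ, rfl⟩

theorem deltaNFun_slash (γ : SL(2, ℤ)) (hγ : γ ∈ Gamma0 N) :
    deltaNFun N ∣[(12 : ℤ)] (Matrix.SpecialLinearGroup.mapGL ℝ γ) = deltaNFun N := by
  have hc : (N : ℤ) ∣ γ 1 0 := (ZMod.intCast_zmod_eq_zero_iff_dvd _ _).mp (Gamma0_mem.mp hγ)
  obtain ⟨e, he⟩ := hc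
  obtain ⟨g', -, hmul⟩ :=
    P2MW.S_ModularForm_heckeT_slash_eq_self_of_mem_Gamma0.ModularForm.HeckeSlashInvariance.heckeDiagMatrix_mul_of_eq'
      (NeZero.ne N) γ e he
  unfold deltaNFun
  rw [← SlashAction.slash_mul, hmul, SlashAction.slash_mul, discriminant_slash_mapGL]

omit [NeZero N] in
theorem mdiff_deltaNFun : MDiff (deltaNFun N) :=
  (ModularFormClass.holo CuspForm.discriminant).slash _ _

open ConjAct Pointwise in
theorem gamma0_le_conj :
    (Gamma0 N : Subgroup (GL (Fin 2) ℝ)) ≤ toConjAct (heckeDiagMatrix N)⁻¹ • 𝒮ℒ := by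
  rintro _ ⟨γ, hγ, rfl⟩
  have hc : (N : ℤ) ∣ γ 1 0 := (ZMod.intCast_zmod_eq_zero_iff_dvd _ _).mp (Gamma0_mem.mp hγ)
  obtain ⟨e, he⟩ := hc
  obtain ⟨g', -, hmul⟩ :=
    P2MW.S_ModularForm_heckeT_slash_eq_self_of_mem_Gamma0.ModularForm.HeckeSlashInvariance.heckeDiagMatrix_mul_of_eq'
      (NeZero.ne N) γ e he
  rw [map_inv, Subgroup.mem_inv_pointwise_smul_iff, toConjAct_smul]
  refine ⟨g', ?_⟩
  rw [hmul, mul_inv_cancel_right]

/-- `Δ(Nz)` (times `N ^ 11`) as a modular form of level `Γ₀(N)` and weight 12. -/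
def deltaN : ModularForm (Gamma0 N : Subgroup (GL (Fin 2) ℝ)) 12 where
  toFun := deltaNFun N
  slash_action_eq' := by
    rintro _ ⟨γ, hγ, rfl⟩
    exact deltaNFun_slash N γ hγ
  holo' := mdiff_deltaNFun N
  bdd_at_cusps' {c} hc :=
    (ModularForm.translate CuspForm.discriminant (heckeDiagMatrix N)).bdd_at_cusps'
      (hc.mono (gamma0_le_conj N))

theorem coe_deltaN : (⇑(deltaN N) : ℍ → ℂ) = deltaNFun N := rfl

theorem deltaN_apply (τ : ℍ) :
    deltaN N τ = (N : ℂ) ^ ((12 : ℤ) - 1) * ModularForm.discriminant (heckeDiagMatrix N • τ) :=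
  slash_heckeDiagMatrix_apply 12 (NeZero.ne N) _ τ


omit [NeZero N] in
theorem gamma0_strictPeriods :
    (1 : ℝ) ∈ (Gamma0 N : Subgroup (GL (Fin 2) ℝ)).strictPeriods :=
  CongruenceSubgroup.one_mem_strictPeriods_Gamma0 N

/-- The `q`-expansion coefficients of `deltaN`. -/
theorem qExpansion_deltaN_coeff (n : ℕ) :
    (qExpansion 1 (deltaN N)).coeff n =
      if N ∣ n then (N : ℂ) ^ ((12 : ℤ) - 1) *
        (qExpansion 1 ModularForm.discriminant).coeff (n / N) else 0 := by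
  have hsum : ∀ τ : ℍ, HasSum (fun n : ℕ => (if N ∣ n then (N : ℂ) ^ ((12 : ℤ) - 1) *
      (qExpansion 1 ModularForm.discriminant).coeff (n / N) else 0) •
        Function.Periodic.qParam 1 τ ^ n) (deltaN N τ) := by
    intro τ
    have h := P2MW.S_UpperHalfPlane_qCoeff_heckeT.M4cP1W2.hasSum_diag (f := ModularForm.discriminant)
      (NeZero.ne N)
      (SlashInvariantFormClass.periodic_comp_ofComplex CuspForm.discriminant
        one_mem_strictPeriods_SL)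
      (ModularFormClass.holo CuspForm.discriminant)
      (ModularFormClass.bdd_at_infty CuspForm.discriminant) 12 τ
    rw [deltaN_apply]
    convert h using 2 with m
    split_ifs <;> simp [ModularFormClass.qCoeff]
  exact (ModularFormClass.qExpansion_coeff_unique one_pos (gamma0_strictPeriods N) hsum n).symm

theorem map_qExpansion_deltaN (σ : ℂ →+* ℂ) :
    (qExpansion 1 (deltaN N)).map σ = qExpansion 1 (deltaN N) := by
  ext n
  have hΔ := map_qExpansion_discriminant σ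
  rw [PowerSeries.coeff_map, qExpansion_deltaN_coeff]
  split_ifs with h
  · have := congrArg (fun p : PowerSeries ℂ => p.coeff (n / N)) hΔ
    simp only [PowerSeries.coeff_map] at this
    rw [map_mul, this, map_zpow₀, map_natCast]
  · rw [map_zero]


section Asymptotics

open Real

/-- Upper bound for `Δ` near `i∞`. -/
theorem discriminant_norm_le : ∃ C A : ℝ, ∀ τ : ℍ, A ≤ τ.im →
    ‖ModularForm.discriminant τ‖ ≤ C * Real.exp (-2 * π * τ.im) := by
  have h := CuspFormClass.exp_decay_atImInfty (h := 1) CuspForm.discriminant one_pos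
    one_mem_strictPeriods_SL
  obtain ⟨C, hC⟩ := h.bound
  obtain ⟨A, hA⟩ := (atImInfty_mem _).mp hC
  refine ⟨C, A, fun τ hτ => ?_⟩
  have := hA τ hτ
  simp only [Set.mem_ofPred_eq, div_one, Real.norm_eq_abs, Real.abs_exp] at this
  exact this

/-- Lower bound for `Δ` near `i∞`. -/
theorem discriminant_norm_ge : ∃ C A : ℝ, ∀ τ : ℍ, A ≤ τ.im →
    Real.exp (-2 * π * τ.im) ≤ C * ‖ModularForm.discriminant τ‖ := by
  obtain ⟨C, hC⟩ := exp_isBigO_discriminant.bound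
  obtain ⟨A, hA⟩ := (atImInfty_mem _).mp hC
  refine ⟨C, A, fun τ hτ => ?_⟩
  have := hA τ hτ
  simp only [Set.mem_ofPred_eq, Real.norm_eq_abs, Real.abs_exp] at this
  exact this

/-- Slash action of an upper triangular matrix with positive diagonal on `Δ`. -/
theorem norm_discriminant_slash_upper (g b m : ℝ) (hg : 0 < g) (hm : 0 < m) (τ : ℍ) :
    ‖((ModularForm.discriminant : ℍ → ℂ) ∣[(12 : ℤ)]
        upperTriangularGL g b m (mul_pos hg hm).ne') τ‖ =
      ‖ModularForm.discriminant (upperTriangularGL g b m (mul_pos hg hm).ne' • τ)‖ *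
        ((g * m) ^ 11 / m ^ 12) := by
  have hdet : (upperTriangularGL g b m (mul_pos hg hm).ne').det.val = g * m := by
    rw [Matrix.GeneralLinearGroup.val_det_apply, val_upperTriangularGL, Matrix.det_fin_two_of]
    ring
  have hdetpos : 0 < (upperTriangularGL g b m (mul_pos hg hm).ne').det.val := by
    rw [hdet]
    exact mul_pos hg hm
  have hden : denom (upperTriangularGL g b m (mul_pos hg hm).ne') τ = (m : ℂ) := by
    simp [denom, val_upperTriangularGL]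
  have hσ : σ (upperTriangularGL g b m (mul_pos hg hm).ne') = .refl ℝ ℂ := by
    rw [σ, if_pos hdetpos]
  rw [ModularForm.slash_apply, hσ, hden, hdet, abs_of_pos (mul_pos hg hm)]
  simp only [ContinuousAlgEquiv.refl_apply]
  rw [norm_mul, norm_mul, mul_assoc]
  congr 1
  rw [show (12 : ℤ) - 1 = ((11 : ℕ) : ℤ) by norm_num, zpow_natCast, norm_pow,
    Complex.norm_real, Real.norm_of_nonneg (mul_pos hg hm).le,
    show (-(12 : ℤ)) = -((12 : ℕ) : ℤ) by norm_num, zpow_neg, zpow_natCast, norm_inv, norm_pow,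
    Complex.norm_real, Real.norm_of_nonneg hm.le, div_eq_mul_inv]

theorem im_upper_smul (g b m : ℝ) (hg : 0 < g) (hm : 0 < m) (τ : ℍ) :
    (upperTriangularGL g b m (mul_pos hg hm).ne' • τ).im = g / m * τ.im := by
  have hdet : (upperTriangularGL g b m (mul_pos hg hm).ne').det.val = g * m := by
    rw [Matrix.GeneralLinearGroup.val_det_apply, val_upperTriangularGL, Matrix.det_fin_two_of]
    ring
  have hden : denom (upperTriangularGL g b m (mul_pos hg hm).ne') τ = (m : ℂ) := by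
    simp [denom, val_upperTriangularGL]
  rw [UpperHalfPlane.im_smul_eq_div_normSq, hden, hdet, abs_of_pos (mul_pos hg hm),
    Complex.normSq_ofReal]
  field_simp

/-- Comparison of decay rates: if `Δ ∣ M₁ = Δ ∣ M₂` for upper triangular `M₁`, `M₂` with positive
diagonals then the decay rate of the first is at least that of the second. -/
theorem rate_le_of_slash_eq (g₁ b₁ m₁ g₂ b₂ m₂ : ℝ) (hg₁ : 0 < g₁) (hm₁ : 0 < m₁)
    (hg₂ : 0 < g₂) (hm₂ : 0 < m₂)
    (h : (ModularForm.discriminant : ℍ → ℂ) ∣[(12 : ℤ)]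
        upperTriangularGL g₁ b₁ m₁ (mul_pos hg₁ hm₁).ne' =
      (ModularForm.discriminant : ℍ → ℂ) ∣[(12 : ℤ)]
        upperTriangularGL g₂ b₂ m₂ (mul_pos hg₂ hm₂).ne') :
    g₂ / m₂ ≤ g₁ / m₁ := by
  by_contra hlt
  push Not at hlt
  obtain ⟨C₁, A₁, hlow⟩ := discriminant_norm_ge
  obtain ⟨C₂, A₂, hupp⟩ := discriminant_norm_le
  set r₁ := g₁ / m₁ with hr₁
  set r₂ := g₂ / m₂ with hr₂
  have hr₁pos : 0 < r₁ := div_pos hg₁ hm₁
  have hr₂pos : 0 < r₂ := div_pos hg₂ hm₂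
  set c₁ := (g₁ * m₁) ^ 11 / m₁ ^ 12 with hc₁
  set c₂ := (g₂ * m₂) ^ 11 / m₂ ^ 12 with hc₂
  have hc₁pos : 0 < c₁ := div_pos (pow_pos (mul_pos hg₁ hm₁) _) (pow_pos hm₁ _)
  have hc₂pos : 0 < c₂ := div_pos (pow_pos (mul_pos hg₂ hm₂) _) (pow_pos hm₂ _)
  -- for all large y: exp (-2π r₁ y) ≤ K exp (-2π r₂ y)
  have hkey : ∀ y : ℝ, 0 < y → A₁ ≤ r₁ * y → A₂ ≤ r₂ * y →
      Real.exp (-2 * π * (r₁ * y)) * c₁ ≤ C₁ * (C₂ * Real.exp (-2 * π * (r₂ * y)) * c₂) := by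
    intro y hy hy1 hy2
    set τ : ℍ := ⟨Complex.I * y, by simpa using hy⟩ with hτ
    have hτim : τ.im = y := by simp [hτ, UpperHalfPlane.im]
    have e1 := norm_discriminant_slash_upper g₁ b₁ m₁ hg₁ hm₁ τ
    have e2 := norm_discriminant_slash_upper g₂ b₂ m₂ hg₂ hm₂ τ
    have i1 := im_upper_smul g₁ b₁ m₁ hg₁ hm₁ τ
    have i2 := im_upper_smul g₂ b₂ m₂ hg₂ hm₂ τ
    rw [hτim] at i1 i2
    have l1 := hlow (upperTriangularGL g₁ b₁ m₁ (mul_pos hg₁ hm₁).ne' • τ) (by rw [i1]; exact hy1)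
    have u2 := hupp (upperTriangularGL g₂ b₂ m₂ (mul_pos hg₂ hm₂).ne' • τ) (by rw [i2]; exact hy2)
    rw [i1] at l1
    rw [i2] at u2
    rw [h, e2] at e1
    have hC₁ : 0 ≤ C₁ := by
      by_contra hneg
      push Not at hneg
      have : C₁ * ‖ModularForm.discriminant
          (upperTriangularGL g₁ b₁ m₁ (mul_pos hg₁ hm₁).ne' • τ)‖ ≤ 0 :=
        mul_nonpos_of_nonpos_of_nonneg hneg.le (norm_nonneg _)
      linarith [Real.exp_pos (-2 * π * (r₁ * y))]
    calc Real.exp (-2 * π * (r₁ * y)) * c₁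
        ≤ C₁ * ‖ModularForm.discriminant
          (upperTriangularGL g₁ b₁ m₁ (mul_pos hg₁ hm₁).ne' • τ)‖ * c₁ :=
          mul_le_mul_of_nonneg_right l1 hc₁pos.le
      _ = C₁ * (‖ModularForm.discriminant
          (upperTriangularGL g₂ b₂ m₂ (mul_pos hg₂ hm₂).ne' • τ)‖ * c₂) := by
          rw [mul_assoc, ← e1]
      _ ≤ C₁ * (C₂ * Real.exp (-2 * π * (r₂ * y)) * c₂) := by
          apply mul_le_mul_of_nonneg_left _ hC₁
          exact mul_le_mul_of_nonneg_right u2 hc₂pos.le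
  -- contradiction for large y
  obtain ⟨K, hK⟩ : ∃ K : ℝ, K = C₁ * C₂ * c₂ / c₁ := ⟨_, rfl⟩
  have hkey' : ∀ y : ℝ, 0 < y → A₁ ≤ r₁ * y → A₂ ≤ r₂ * y →
      Real.exp (2 * π * (r₂ - r₁) * y) ≤ K := by
    intro y hy hy1 hy2
    have h1 := hkey y hy hy1 hy2
    have hexp : Real.exp (2 * π * (r₂ - r₁) * y) =
        Real.exp (-2 * π * (r₁ * y)) / Real.exp (-2 * π * (r₂ * y)) := by
      rw [← Real.exp_sub]
      congr 1
      ring
    have h4 : Real.exp (-2 * π * (r₁ * y)) ≤ K * Real.exp (-2 * π * (r₂ * y)) := by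
      have h5 : K * Real.exp (-2 * π * (r₂ * y)) =
          (C₁ * (C₂ * Real.exp (-2 * π * (r₂ * y)) * c₂)) / c₁ := by
        rw [hK]
        ring
      rw [h5, le_div_iff₀ hc₁pos]
      exact h1
    rw [hexp, div_le_iff₀ (Real.exp_pos _)]
    exact h4
  have hpos : 0 < 2 * π * (r₂ - r₁) := by
    have := Real.pi_pos
    nlinarith
  -- choose y large
  obtain ⟨y, hy⟩ : ∃ y : ℝ, 0 < y ∧ A₁ ≤ r₁ * y ∧ A₂ ≤ r₂ * y ∧ K < 2 * π * (r₂ - r₁) * y := by
    refine ⟨max 1 (max (A₁ / r₁) (max (A₂ / r₂) (K / (2 * π * (r₂ - r₁)) + 1))), ?_, ?_, ?_, ?_⟩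
    · exact lt_of_lt_of_le one_pos (le_max_left _ _)
    · have : A₁ / r₁ ≤ max 1 (max (A₁ / r₁) (max (A₂ / r₂) (K / (2 * π * (r₂ - r₁)) + 1))) :=
        le_trans (le_max_left _ _) (le_max_right _ _)
      calc A₁ = r₁ * (A₁ / r₁) := by field_simp
        _ ≤ _ := mul_le_mul_of_nonneg_left this hr₁pos.le
    · have : A₂ / r₂ ≤ max 1 (max (A₁ / r₁) (max (A₂ / r₂) (K / (2 * π * (r₂ - r₁)) + 1))) :=
        le_trans (le_trans (le_max_left _ _) (le_max_right _ _)) (le_max_right _ _)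
      calc A₂ = r₂ * (A₂ / r₂) := by field_simp
        _ ≤ _ := mul_le_mul_of_nonneg_left this hr₂pos.le
    · have : K / (2 * π * (r₂ - r₁)) + 1 ≤
          max 1 (max (A₁ / r₁) (max (A₂ / r₂) (K / (2 * π * (r₂ - r₁)) + 1))) :=
        le_trans (le_trans (le_max_right _ _) (le_max_right _ _)) (le_max_right _ _)
      calc K = 2 * π * (r₂ - r₁) * (K / (2 * π * (r₂ - r₁))) := by field_simp
        _ < 2 * π * (r₂ - r₁) * (K / (2 * π * (r₂ - r₁)) + 1) := by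
          apply mul_lt_mul_of_pos_left _ hpos
          linarith
        _ ≤ _ := mul_le_mul_of_nonneg_left this hpos.le
  have h2 := hkey' y hy.1 hy.2.1 hy.2.2.1
  have h3 : 2 * π * (r₂ - r₁) * y < Real.exp (2 * π * (r₂ - r₁) * y) := by
    have := Real.add_one_lt_exp (x := 2 * π * (r₂ - r₁) * y) (by
      have := mul_pos hpos hy.1
      exact this.ne')
    linarith
  linarith [hy.2.2.2]

end Asymptotics

section Decomposition

/-- Hermite normal form: `diag(N, 1) * γ = δ * (g, B; 0, m)` with `δ ∈ SL(2, ℤ)`,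
`g = gcd (N * γ₀₀, γ₁₀)` and `g * m = N`. -/
theorem exists_hnf_decomposition (γ : SL(2, ℤ)) :
    ∃ (δ : SL(2, ℤ)) (g m B : ℤ) (hg : 0 < g) (hm : 0 < m), g * m = N ∧ g ∣ γ 1 0 ∧
      heckeDiagMatrix N * Matrix.SpecialLinearGroup.mapGL ℝ γ =
        Matrix.SpecialLinearGroup.mapGL ℝ δ *
          upperTriangularGL (g : ℝ) (B : ℝ) (m : ℝ)
            (mul_pos (Int.cast_pos.mpr hg) (Int.cast_pos.mpr hm)).ne' := by
  have hN : (N : ℤ) ≠ 0 := by exact_mod_cast NeZero.ne N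
  have hNpos : (0 : ℤ) < N := by exact_mod_cast Nat.pos_of_ne_zero (NeZero.ne N)
  have hdet : γ 0 0 * γ 1 1 - γ 0 1 * γ 1 0 = 1 := by
    have := γ.det_coe
    rw [Matrix.det_fin_two] at this
    exact this
  obtain ⟨x, hx⟩ : ∃ x : ℤ, x = N * γ 0 0 := ⟨_, rfl⟩
  obtain ⟨y, hy⟩ : ∃ y : ℤ, y = γ 1 0 := ⟨_, rfl⟩
  obtain ⟨g, hgdef⟩ : ∃ g : ℤ, g = (Int.gcd x y : ℤ) := ⟨_, rfl⟩
  have hxy : ¬ (x = 0 ∧ y = 0) := by
    rintro ⟨h1, h2⟩
    rw [hx] at h1
    rw [hy] at h2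
    have ha : γ 0 0 = 0 := by
      rcases mul_eq_zero.mp h1 with h | h
      · exact absurd h hN
      · exact h
    rw [ha, h2] at hdet
    simp at hdet
  have hgpos : 0 < g := by
    rw [hgdef]
    have : Int.gcd x y ≠ 0 := by
      rw [Ne, Int.gcd_eq_zero_iff]
      exact hxy
    exact_mod_cast Nat.pos_of_ne_zero this
  obtain ⟨x₁, hx₁⟩ : g ∣ x := by rw [hgdef]; exact Int.gcd_dvd_left x y
  obtain ⟨y₁, hy₁⟩ : g ∣ y := by rw [hgdef]; exact Int.gcd_dvd_right x y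
  obtain ⟨u, hu⟩ : ∃ u : ℤ, u = Int.gcdA x y := ⟨_, rfl⟩
  obtain ⟨v, hv⟩ : ∃ v : ℤ, v = Int.gcdB x y := ⟨_, rfl⟩
  have hbez : x₁ * u + y₁ * v = 1 := by
    have h := Int.gcd_eq_gcd_ab x y
    rw [← hgdef, ← hu, ← hv] at h
    have h2 : g * (x₁ * u + y₁ * v) = g * 1 := by
      linear_combination -h - u * hx₁ - v * hy₁
    exact mul_left_cancel₀ hgpos.ne' h2
  obtain ⟨m, hmdef⟩ : ∃ m : ℤ, m = x₁ * γ 1 1 - y₁ * (N * γ 0 1) := ⟨_, rfl⟩
  have hgm : g * m = N := by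
    have : g * m = (g * x₁) * γ 1 1 - (g * y₁) * (N * γ 0 1) := by rw [hmdef]; ring
    rw [this, ← hx₁, ← hy₁, hx, hy]
    linear_combination (N : ℤ) * hdet
  have hmpos : 0 < m := by
    by_contra hneg
    push Not at hneg
    have : g * m ≤ 0 := mul_nonpos_of_nonneg_of_nonpos hgpos.le hneg
    omega
  obtain ⟨δ, hδ00, hδ01, hδ10, hδ11⟩ : ∃ δ : SL(2, ℤ),
      δ 0 0 = x₁ ∧ δ 0 1 = -v ∧ δ 1 0 = y₁ ∧ δ 1 1 = u :=
    ⟨⟨!![x₁, -v; y₁, u], by
      rw [Matrix.det_fin_two_of]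
      linear_combination hbez⟩, rfl, rfl, rfl, rfl⟩
  refine ⟨δ, g, m, u * (N * γ 0 1) + v * γ 1 1, hgpos, hmpos, hgm, ⟨y₁, by rw [← hy, hy₁]⟩, ?_⟩
  have hx' : (N : ℝ) * (γ 0 0 : ℝ) = (g : ℝ) * (x₁ : ℝ) := by
    have := hx₁
    rw [hx] at this
    exact_mod_cast this
  have hy' : (γ 1 0 : ℝ) = (g : ℝ) * (y₁ : ℝ) := by
    have := hy₁
    rw [hy] at this
    exact_mod_cast this
  have hbez' : (x₁ : ℝ) * u + y₁ * v = 1 := by exact_mod_cast hbez
  have hm' : (m : ℝ) = x₁ * γ 1 1 - y₁ * (N * γ 0 1) := by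
    rw [hmdef]
    push_cast
    ring
  apply Units.ext
  rw [Units.val_mul, Units.val_mul, val_heckeDiagMatrix (NeZero.ne N), val_upperTriangularGL]
  ext i j
  fin_cases i <;> fin_cases j
  · simp [Matrix.mul_apply, Fin.sum_univ_two, hδ00, hδ01, hδ10, hδ11]
    linear_combination hx'
  · simp [Matrix.mul_apply, Fin.sum_univ_two, hδ00, hδ01, hδ10, hδ11]
    rw [hm']
    linear_combination (-(N : ℝ) * (γ 0 1 : ℝ)) * hbez'
  · simp [Matrix.mul_apply, Fin.sum_univ_two, hδ00, hδ01, hδ10, hδ11]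
    linear_combination hy'
  · simp [Matrix.mul_apply, Fin.sum_univ_two, hδ00, hδ01, hδ10, hδ11]
    rw [hm']
    linear_combination (-(γ 1 1 : ℝ)) * hbez'

end Decomposition

theorem heckeDiagMatrix_eq_upper :
    heckeDiagMatrix N = upperTriangularGL (N : ℝ) 0 1
      (mul_pos (Nat.cast_pos.mpr (Nat.pos_of_ne_zero (NeZero.ne N))) one_pos).ne' := by
  unfold heckeDiagMatrix
  rw [dif_neg (NeZero.ne N)]

/-- `Δ(Nz)` is not invariant under any element of `SL(2, ℤ)` outside `Γ₀(N)`. -/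
theorem deltaN_slash_ne (γ : SL(2, ℤ)) (hγ : γ ∉ Gamma0 N) :
    (⇑(deltaN N) : ℍ → ℂ) ∣[(12 : ℤ)] γ ≠ ⇑(deltaN N) := by
  intro heq
  apply hγ
  obtain ⟨δ, g, m, B, hg, hm, hgm, hdvd, hdec⟩ := exists_hnf_decomposition N γ
  have hNpos : (0 : ℝ) < N := Nat.cast_pos.mpr (Nat.pos_of_ne_zero (NeZero.ne N))
  have h1 : (⇑(deltaN N) : ℍ → ℂ) ∣[(12 : ℤ)] γ =
      (ModularForm.discriminant : ℍ → ℂ) ∣[(12 : ℤ)]
        upperTriangularGL (g : ℝ) (B : ℝ) (m : ℝ)
          (mul_pos (Int.cast_pos.mpr hg) (Int.cast_pos.mpr hm)).ne' := by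
    rw [coe_deltaN, ModularForm.SL_slash]
    unfold deltaNFun
    rw [← SlashAction.slash_mul]
    change (ModularForm.discriminant : ℍ → ℂ) ∣[(12 : ℤ)]
      (heckeDiagMatrix N * Matrix.SpecialLinearGroup.mapGL ℝ γ) = _
    rw [hdec, SlashAction.slash_mul, discriminant_slash_mapGL]
  have h2 : (⇑(deltaN N) : ℍ → ℂ) =
      (ModularForm.discriminant : ℍ → ℂ) ∣[(12 : ℤ)]
        upperTriangularGL (N : ℝ) 0 1 (mul_pos hNpos one_pos).ne' := by
    rw [coe_deltaN]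
    unfold deltaNFun
    rw [heckeDiagMatrix_eq_upper N]
  rw [h1, h2] at heq
  have hrate := rate_le_of_slash_eq (g : ℝ) (B : ℝ) (m : ℝ) (N : ℝ) 0 1
    (Int.cast_pos.mpr hg) (Int.cast_pos.mpr hm) hNpos one_pos heq
  rw [div_one, le_div_iff₀ (Int.cast_pos.mpr hm)] at hrate
  have hrate' : (N : ℤ) * m ≤ g := by exact_mod_cast hrate
  have hm1 : m = 1 := by
    have h3 : g * (m * m) ≤ g * 1 := by
      rw [← mul_assoc, hgm, mul_one]
      exact hrate'
    have h4 : m * m ≤ 1 := le_of_mul_le_mul_left h3 hg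
    have h5 : m ≤ 1 := by nlinarith
    omega
  have hgN : g = N := by rw [← hgm, hm1, mul_one]
  rw [Gamma0_mem, ZMod.intCast_zmod_eq_zero_iff_dvd]
  rw [← hgN]
  exact hdvd

end

end Fermat.Agent.S23
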