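import Mathlib
import Fermat.Statements.S23
import Fermat.Prelude.Thm_CongruenceSubgroup_one_mem_strictPeriods_Gamma0
import Fermat.Agent.S23.Defs
import Fermat.Agent.S23.LevelOne

/-!
# S23, part 5a: pairs of modular forms of level `Γ₀(N)` with conjugate `q`-expansions
-/

set_option autoImplicit false

open UpperHalfPlane ModularForm CongruenceSubgroup SlashInvariantForm
open scoped MatrixGroups ModularForm Manifold Topology

namespace Fermat.Agent.S23

noncomputable section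

variable (σ : ℂ →+* ℂ) (N : ℕ)

local notation "Γ₀" => (Gamma0 N : Subgroup (GL (Fin 2) ℝ))

/-- `F` and `G` are modular forms of weight `w` and level `Γ₀(N)`, and the `q`-expansion of `G`
is the `σ`-conjugate of that of `F`. -/
def IsConj (w : ℤ) (F G : ℍ → ℂ) : Prop :=
  ∃ a b : ModularForm Γ₀ w, ⇑a = F ∧ ⇑b = G ∧ qExpansion 1 G = (qExpansion 1 F).map σ

variable {σ N}

theorem Gamma0_le_SL : Γ₀ ≤ 𝒮ℒ := Subgroup.map_le_range _ _

/-- Restriction of a level one modular form to `Γ₀(N)`. -/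
def restrictLevel {w : ℤ} (c : ModularForm 𝒮ℒ w) : ModularForm Γ₀ w where
  toFun := c
  slash_action_eq' γ hγ := c.slash_action_eq' γ (Gamma0_le_SL hγ)
  holo' := c.holo'
  bdd_at_cusps' hc := c.bdd_at_cusps' (hc.mono Gamma0_le_SL)

@[simp] theorem coe_restrictLevel {w : ℤ} (c : ModularForm 𝒮ℒ w) :
    ⇑(restrictLevel (N := N) c) = ⇑c := rfl

namespace IsConj

variable {w w₁ w₂ : ℤ} {F G F₁ G₁ F₂ G₂ : ℍ → ℂ}

theorem cast {w' : ℤ} (h : w = w') (hc : IsConj σ N w F G) : IsConj σ N w' F G := h ▸ hc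

theorem zero : IsConj σ N w 0 0 :=
  ⟨0, 0, rfl, rfl, by simp [qExpansion_zero]⟩

theorem one : IsConj σ N 0 1 1 :=
  ⟨1, 1, ModularForm.one_coe_eq_one, ModularForm.one_coe_eq_one, by simp [qExpansion_one]⟩

theorem add (h₁ : IsConj σ N w F₁ G₁) (h₂ : IsConj σ N w F₂ G₂) :
    IsConj σ N w (F₁ + F₂) (G₁ + G₂) := by
  obtain ⟨a₁, b₁, rfl, rfl, e₁⟩ := h₁
  obtain ⟨a₂, b₂, rfl, rfl, e₂⟩ := h₂
  refine ⟨a₁ + a₂, b₁ + b₂, rfl, rfl, ?_⟩
  rw [ModularForm.qExpansion_add one_pos (one_mem_strictPeriods_Gamma0 N),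
    ModularForm.qExpansion_add one_pos (one_mem_strictPeriods_Gamma0 N), e₁, e₂, map_add]

theorem mul (h₁ : IsConj σ N w₁ F₁ G₁) (h₂ : IsConj σ N w₂ F₂ G₂) :
    IsConj σ N (w₁ + w₂) (F₁ * F₂) (G₁ * G₂) := by
  obtain ⟨a₁, b₁, rfl, rfl, e₁⟩ := h₁
  obtain ⟨a₂, b₂, rfl, rfl, e₂⟩ := h₂
  refine ⟨a₁.mul a₂, b₁.mul b₂, rfl, rfl, ?_⟩
  rw [ModularForm.qExpansion_mul_coe one_pos (one_mem_strictPeriods_Gamma0 N),
    ModularForm.qExpansion_mul_coe one_pos (one_mem_strictPeriods_Gamma0 N), e₁, e₂, map_mul]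

theorem smul (h : IsConj σ N w F G) (a : ℂ) : IsConj σ N w (a • F) (σ a • G) := by
  obtain ⟨a₁, b₁, rfl, rfl, e₁⟩ := h
  refine ⟨a • a₁, σ a • b₁, rfl, rfl, ?_⟩
  rw [ModularForm.qExpansion_smul one_pos (one_mem_strictPeriods_Gamma0 N),
    ModularForm.qExpansion_smul one_pos (one_mem_strictPeriods_Gamma0 N), e₁]
  ext n
  simp

theorem pow (h : IsConj σ N w F G) (n : ℕ) : IsConj σ N (w * n) (F ^ n) (G ^ n) := by
  induction n with
  | zero => simpa using (one : IsConj σ N 0 1 1)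
  | succ n ih =>
    rw [pow_succ, pow_succ]
    exact (ih.mul h).cast (by push_cast; ring)

theorem sum {ι : Type*} (s : Finset ι) (F G : ι → ℍ → ℂ)
    (h : ∀ i ∈ s, IsConj σ N w (F i) (G i)) :
    IsConj σ N w (∑ i ∈ s, F i) (∑ i ∈ s, G i) := by
  classical
  induction s using Finset.induction_on with
  | empty => simpa using (zero : IsConj σ N w 0 0)
  | insert i s hi ih =>
    rw [Finset.sum_insert hi, Finset.sum_insert hi]
    exact (h i (Finset.mem_insert_self i s)).add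
      (ih fun j hj => h j (Finset.mem_insert_of_mem hj))

theorem mdiff_right (h : IsConj σ N w F G) : MDiff G := by
  obtain ⟨a, b, rfl, rfl, -⟩ := h
  exact b.holo'

theorem slash_right (h : IsConj σ N w F G) (γ : GL (Fin 2) ℝ) (hγ : γ ∈ Γ₀) : G ∣[w] γ = G := by
  obtain ⟨a, b, rfl, rfl, -⟩ := h
  exact b.slash_action_eq' γ hγ

theorem qExpansion_eq (h : IsConj σ N w F G) : qExpansion 1 G = (qExpansion 1 F).map σ := by
  obtain ⟨a, b, rfl, rfl, e⟩ := h
  exact e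

theorem eq_zero (h : IsConj σ N w 0 G) : G = 0 := by
  obtain ⟨a, b, ha, rfl, e⟩ := h
  rw [qExpansion_zero, map_zero, ModularForm.qExpansion_eq_zero_iff one_pos
    (one_mem_strictPeriods_Gamma0 N)] at e
  rw [e]
  rfl

theorem ne_zero (h : IsConj σ N w F G) (hF : F ≠ 0) : G ≠ 0 := by
  obtain ⟨a, b, rfl, rfl, e⟩ := h
  intro hb
  apply hF
  have h0 : qExpansion 1 (⇑a) = 0 := by
    have : (qExpansion 1 (⇑a)).map σ = 0 := by rw [← e, hb, qExpansion_zero]
    ext n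
    have hn := congrArg (PowerSeries.coeff n) this
    simpa using hn
  rw [ModularForm.qExpansion_eq_zero_iff one_pos (one_mem_strictPeriods_Gamma0 N)] at h0
  rw [h0]
  rfl

end IsConj

theorem isConj_of_levelOne (σ : ℂ →+* ℂ) (N : ℕ) {w : ℤ} {F : ℍ → ℂ} (hF : IsLevelOne w F) :
    ∃ G, IsLevelOne w G ∧ IsConj σ N w F G := by
  obtain ⟨c, rfl⟩ := hF
  obtain ⟨c', hc'⟩ := exists_levelOne_conj σ c
  exact ⟨c', ⟨c', rfl⟩, restrictLevel c, restrictLevel c', rfl, rfl, hc'⟩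

theorem isConj_of_levelOneCusp (σ : ℂ →+* ℂ) (N : ℕ) {w : ℤ} {F : ℍ → ℂ}
    (hF : IsLevelOneCusp w F) : ∃ G, IsLevelOneCusp w G ∧ IsConj σ N w F G := by
  obtain ⟨c, rfl⟩ := hF
  obtain ⟨c', hc'⟩ := exists_levelOne_conj σ (ModularFormClass.modularForm c)
  have hcoe : ⇑(ModularFormClass.modularForm c) = ⇑c := rfl
  have h0 : (qExpansion 1 c').coeff 0 = 0 := by
    rw [hc', PowerSeries.coeff_map, hcoe,
      CuspFormClass.qExpansion_coeff_zero c one_pos one_mem_strictPeriods_SL, map_zero]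
  exact ⟨c', ⟨toCuspForm c' h0, rfl⟩, restrictLevel (ModularFormClass.modularForm c),
    restrictLevel c', rfl, rfl, hc'⟩

end

end Fermat.Agent.S23
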