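import Mathlib
import Fermat.Statements.S23
import Fermat.Agent.S23.Defs

/-!
# S23, part 2: symmetric functions of the translates of a modular form

For a subgroup `𝒢` of finite index in `SL(2,ℤ)` and forms `f`, `x` of level `𝒢`, we show that
the elementary symmetric functions of the translates of `x`, and the mixed sums
`∑_q f_q e_j(x_r : r ≠ q)`, are modular forms of level one.
-/

set_option autoImplicit false

open UpperHalfPlane ModularForm CongruenceSubgroup SlashInvariantForm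
open scoped MatrixGroups ModularForm Manifold Topology

namespace Fermat.Agent.S23

noncomputable section

/-! ### Generalities -/

theorem sum_slash_eq_of_map {ι : Type*} (T T' : Finset ι) (m : ι → ℍ → ℂ) (w : ℤ)
    (h : GL (Fin 2) ℝ) (e : ι ↪ ι) (hT : T.map e = T')
    (hm : ∀ i ∈ T, m i ∣[w] h = m (e i)) : (∑ i ∈ T, m i) ∣[w] h = ∑ i ∈ T', m i := by
  rw [SlashAction.sum_slash, Finset.sum_congr rfl hm, ← hT, Finset.sum_map]

theorem isBoundedAtImInfty_sum {ι : Type*} (T : Finset ι) (m : ι → ℍ → ℂ)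
    (hm : ∀ i ∈ T, IsBoundedAtImInfty (m i)) : IsBoundedAtImInfty (∑ i ∈ T, m i) := by
  refine Finset.sum_induction m IsBoundedAtImInfty (fun a b ha hb => ?_) ?_ hm
  · exact Filter.BoundedAtFilter.add ha hb
  · exact zero_form_isBoundedAtImInfty

theorem isBoundedAtImInfty_prod {ι : Type*} (T : Finset ι) (m : ι → ℍ → ℂ)
    (hm : ∀ i ∈ T, IsBoundedAtImInfty (m i)) : IsBoundedAtImInfty (∏ i ∈ T, m i) := by
  refine Finset.prod_induction m IsBoundedAtImInfty (fun a b ha hb => ?_) ?_ hm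
  · exact Filter.BoundedAtFilter.mul ha hb
  · exact Filter.const_boundedAtFilter _ (1 : ℂ)

theorem isZeroAtImInfty_sum {ι : Type*} (T : Finset ι) (m : ι → ℍ → ℂ)
    (hm : ∀ i ∈ T, IsZeroAtImInfty (m i)) : IsZeroAtImInfty (∑ i ∈ T, m i) := by
  refine Finset.sum_induction m IsZeroAtImInfty (fun a b ha hb => ?_) ?_ hm
  · exact Filter.ZeroAtFilter.add ha hb
  · exact Filter.zero_zeroAtFilter _

theorem isZeroAtImInfty_mul {a b : ℍ → ℂ} (ha : IsZeroAtImInfty a) (hb : IsBoundedAtImInfty b) :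
    IsZeroAtImInfty (a * b) :=
  Filter.ZeroAtFilter.mul_boundedAtFilter ha hb

theorem isZeroAtImInfty_prod {ι : Type*} (T : Finset ι) (hT : T.Nonempty) (m : ι → ℍ → ℂ)
    (hm : ∀ i ∈ T, IsZeroAtImInfty (m i)) : IsZeroAtImInfty (∏ i ∈ T, m i) := by
  refine Finset.prod_induction_nonempty m IsZeroAtImInfty (fun a b ha hb => ?_) hT hm
  exact isZeroAtImInfty_mul ha (Filter.ZeroAtFilter.boundedAtFilter hb)

/-- A holomorphic `SL(2,ℤ)`-invariant function which is bounded at `i∞` is a level one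
modular form. -/
theorem isLevelOne_of {w : ℤ} {F : ℍ → ℂ} (hinv : ∀ h ∈ 𝒮ℒ, F ∣[w] h = F) (hol : MDiff F)
    (hb : IsBoundedAtImInfty F) : IsLevelOne w F := by
  refine ⟨{ toFun := F, slash_action_eq' := hinv, holo' := hol, bdd_at_cusps' := ?_ }, rfl⟩
  intro c hc
  rw [OnePoint.isBoundedAt_iff_forall_SL2Z hc]
  intro γ _
  have h1 : F ∣[w] (Matrix.SpecialLinearGroup.mapGL ℝ γ) = F := hinv _ ⟨γ, rfl⟩
  rw [SL_slash]
  change IsBoundedAtImInfty (F ∣[w] (Matrix.SpecialLinearGroup.mapGL ℝ γ))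
  rw [h1]
  exact hb

/-- A holomorphic `SL(2,ℤ)`-invariant function which is zero at `i∞` is a level one
cusp form. -/
theorem isLevelOneCusp_of {w : ℤ} {F : ℍ → ℂ} (hinv : ∀ h ∈ 𝒮ℒ, F ∣[w] h = F) (hol : MDiff F)
    (hb : IsZeroAtImInfty F) : IsLevelOneCusp w F := by
  refine ⟨{ toFun := F, slash_action_eq' := hinv, holo' := hol, zero_at_cusps' := ?_ }, rfl⟩
  intro c hc
  rw [OnePoint.isZeroAt_iff_forall_SL2Z hc]
  intro γ _
  have h1 : F ∣[w] (Matrix.SpecialLinearGroup.mapGL ℝ γ) = F := hinv _ ⟨γ, rfl⟩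
  rw [SL_slash]
  change IsZeroAtImInfty (F ∣[w] (Matrix.SpecialLinearGroup.mapGL ℝ γ))
  rw [h1]
  exact hb

theorem prod_sub_eq_sum_esymm {R ι : Type*} [CommRing R] (s : Finset ι) (b : ι → R)
    (X : R) : ∏ r ∈ s, (X - b r) =
      ∑ j ∈ Finset.range (s.card + 1),
        (-1) ^ j * (∑ t ∈ s.powersetCard j, ∏ r ∈ t, b r) * X ^ (s.card - j) := by
  have h := congrArg (Polynomial.eval X) (Multiset.prod_X_sub_X_eq_sum_esymm (s.val.map b))
  simp only [Multiset.map_map, Function.comp_def, Multiset.card_map, Finset.card_val,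
    Finset.esymm_map_val] at h
  rw [Polynomial.eval_multiset_prod, Multiset.map_map] at h
  simp only [Function.comp_def, Polynomial.eval_sub, Polynomial.eval_X, Polynomial.eval_C,
    Polynomial.eval_finsetSum, Polynomial.eval_mul, Polynomial.eval_pow, Polynomial.eval_neg,
    Polynomial.eval_one] at h
  rw [Finset.prod_eq_multiset_prod, h]
  refine Finset.sum_congr rfl fun j _ => ?_
  ring

/-! ### Symmetric functions of translates -/

section translates

variable {𝒢 : Subgroup (GL (Fin 2) ℝ)} [𝒢.IsFiniteRelIndex 𝒮ℒ]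
  {F₁ F₂ : Type*} [FunLike F₁ ℍ ℂ] [FunLike F₂ ℍ ℂ] {k w : ℤ}

local notation "𝒬" => (𝒮ℒ ⧸ 𝒢.subgroupOf 𝒮ℒ)

/-- The (noncomputable) fintype structure on the coset space. -/
local instance fintypeCosets : Fintype 𝒬 := Fintype.ofFinite _

/-- The permutation of the coset space induced by `h⁻¹`. -/
def cosetPerm (𝒢 : Subgroup (GL (Fin 2) ℝ)) {h : GL (Fin 2) ℝ} (hh : h ∈ 𝒮ℒ) :
    Equiv.Perm (𝒮ℒ ⧸ 𝒢.subgroupOf 𝒮ℒ) :=
  MulAction.toPerm (⟨h, hh⟩ : 𝒮ℒ)⁻¹

theorem quotientFunc_slash [SlashInvariantFormClass F₂ 𝒢 w] (x : F₂) {h : GL (Fin 2) ℝ}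
    (hh : h ∈ 𝒮ℒ) (q : 𝒬) : quotientFunc x q ∣[w] h = quotientFunc x (cosetPerm 𝒢 hh q) :=
  quotientFunc_smul x hh q

/-- The `j`-th elementary symmetric function of the translates `x_r`, `r ∈ s`. -/
def esymmOn [SlashInvariantFormClass F₂ 𝒢 w] (x : F₂) (s : Finset 𝒬) (j : ℕ) : ℍ → ℂ :=
  ∑ t ∈ s.powersetCard j, ∏ r ∈ t, quotientFunc x r

theorem esymmOn_slash [SlashInvariantFormClass F₂ 𝒢 w] (x : F₂) (s : Finset 𝒬) (j : ℕ)
    {h : GL (Fin 2) ℝ} (hh : h ∈ 𝒮ℒ) :
    esymmOn x s j ∣[w * j] h = esymmOn x (s.map (cosetPerm 𝒢 hh).toEmbedding) j := by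
  unfold esymmOn
  refine sum_slash_eq_of_map _ _ _ _ h
    (Finset.mapEmbedding (cosetPerm 𝒢 hh).toEmbedding).toEmbedding ?_ ?_
  · rw [Finset.powersetCard_map]
  · intro t ht
    have hcard : t.card = j := (Finset.mem_powersetCard.mp ht).2
    rw [← hcard, ModularForm.prod_slash]
    simp only [RelEmbedding.coe_toEmbedding, Finset.mapEmbedding_apply, Finset.prod_map,
      Equiv.coe_toEmbedding]
    simp [quotientFunc_slash x hh, Subgroup.HasDetPlusMinusOne.abs_det hh,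
      -Matrix.GeneralLinearGroup.val_det_apply]

theorem mdiff_quotientFunc [ModularFormClass F₂ 𝒢 w] (x : F₂) (q : 𝒬) :
    MDiff (quotientFunc x q) := by
  induction q using Quotient.inductionOn with
  | h r => exact (ModularForm.translate x r.val⁻¹).holo'

theorem isBoundedAtImInfty_quotientFunc_slash [ModularFormClass F₂ 𝒢 w]
    (x : F₂) (q : 𝒬) : IsBoundedAtImInfty (quotientFunc x q) := by
  induction q using Quotient.inductionOn with
  | h r =>
    obtain ⟨r, hr⟩ := r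
    have hc : IsCusp OnePoint.infty 𝒮ℒ := by
      rw [isCusp_SL2Z_iff']
      exact ⟨1, by simp⟩
    have := (ModularForm.translate x r⁻¹).bdd_at_cusps' (c := OnePoint.infty)
      (by simpa using hc.of_isFiniteRelIndex_conj (𝒢 := 𝒢) hr)
    rw [OnePoint.isBoundedAt_infty_iff] at this
    exact this

theorem isZeroAtImInfty_quotientFunc [CuspFormClass F₂ 𝒢 w]
    (x : F₂) (q : 𝒬) : IsZeroAtImInfty (quotientFunc x q) := by
  induction q using Quotient.inductionOn with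
  | h r =>
    obtain ⟨r, hr⟩ := r
    have hc : IsCusp OnePoint.infty 𝒮ℒ := by
      rw [isCusp_SL2Z_iff']
      exact ⟨1, by simp⟩
    have := (CuspForm.translate x r⁻¹).zero_at_cusps' (c := OnePoint.infty)
      (by simpa using hc.of_isFiniteRelIndex_conj (𝒢 := 𝒢) hr)
    rw [OnePoint.isZeroAt_infty_iff] at this
    exact this

theorem mdiff_esymmOn [ModularFormClass F₂ 𝒢 w] (x : F₂) (s : Finset 𝒬) (j : ℕ) :
    MDiff (esymmOn x s j) :=
  .sum fun t _ => .prod fun r _ => mdiff_quotientFunc x r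

theorem isBoundedAtImInfty_esymmOn [ModularFormClass F₂ 𝒢 w] (x : F₂) (s : Finset 𝒬) (j : ℕ) :
    IsBoundedAtImInfty (esymmOn x s j) :=
  isBoundedAtImInfty_sum _ _ fun t _ => isBoundedAtImInfty_prod _ _ fun r _ =>
    isBoundedAtImInfty_quotientFunc_slash x r

theorem isZeroAtImInfty_esymmOn [CuspFormClass F₂ 𝒢 w] (x : F₂) (s : Finset 𝒬) (j : ℕ)
    (hj : 1 ≤ j) : IsZeroAtImInfty (esymmOn x s j) := by
  refine isZeroAtImInfty_sum _ _ fun t ht => isZeroAtImInfty_prod _ ?_ _ fun r _ =>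
    isZeroAtImInfty_quotientFunc x r
  rw [← Finset.card_pos, (Finset.mem_powersetCard.mp ht).2]
  exact hj

/-- The elementary symmetric functions of all translates. -/
def esymmAux [SlashInvariantFormClass F₂ 𝒢 w] (x : F₂) (j : ℕ) : ℍ → ℂ :=
  esymmOn x (Finset.univ : Finset 𝒬) j

theorem isLevelOne_esymmAux [ModularFormClass F₂ 𝒢 w] (x : F₂) (j : ℕ) :
    IsLevelOne (w * j) (esymmAux x j) := by
  refine isLevelOne_of (fun h hh => ?_) (mdiff_esymmOn x _ j) (isBoundedAtImInfty_esymmOn x _ j)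
  unfold esymmAux
  rw [esymmOn_slash x _ j hh, Finset.map_univ_equiv]

theorem isLevelOneCusp_esymmAux [CuspFormClass F₂ 𝒢 w] (x : F₂) (j : ℕ) (hj : 1 ≤ j) :
    IsLevelOneCusp (w * j) (esymmAux x j) := by
  refine isLevelOneCusp_of (fun h hh => ?_) (mdiff_esymmOn x _ j)
    (isZeroAtImInfty_esymmOn x _ j hj)
  unfold esymmAux
  rw [esymmOn_slash x _ j hh, Finset.map_univ_equiv]

open scoped Classical in
/-- The mixed symmetric sums `∑_q f_q e_j(x_r : r ≠ q)`. -/
def mixedAux [SlashInvariantFormClass F₁ 𝒢 k] [SlashInvariantFormClass F₂ 𝒢 w]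
    (f : F₁) (x : F₂) (j : ℕ) : ℍ → ℂ :=
  ∑ q : 𝒬, quotientFunc f q * esymmOn x (Finset.univ.erase q) j

open scoped Classical in
theorem isLevelOne_mixedAux [ModularFormClass F₁ 𝒢 k] [ModularFormClass F₂ 𝒢 w]
    (f : F₁) (x : F₂) (j : ℕ) : IsLevelOne (k + w * j) (mixedAux f x j) := by
  refine isLevelOne_of (fun h hh => ?_) ?_ ?_
  · unfold mixedAux
    rw [SlashAction.sum_slash]
    have key : ∀ q : 𝒬, (quotientFunc f q * esymmOn x (Finset.univ.erase q) j) ∣[k + w * j] h =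
        quotientFunc f (cosetPerm 𝒢 hh q) *
          esymmOn x (Finset.univ.erase (cosetPerm 𝒢 hh q)) j := by
      intro q
      rw [ModularForm.mul_slash, esymmOn_slash x _ j hh, quotientFunc_slash f hh,
        Finset.map_erase, Finset.map_univ_equiv]
      simp [Subgroup.HasDetPlusMinusOne.abs_det hh, -Matrix.GeneralLinearGroup.val_det_apply]
    rw [Finset.sum_congr rfl fun q _ => key q]
    exact Equiv.sum_comp (cosetPerm 𝒢 hh)
      (fun q => quotientFunc f q * esymmOn x (Finset.univ.erase q) j)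
  · exact .sum fun q _ => (mdiff_quotientFunc f q).mul (mdiff_esymmOn x _ j)
  · exact isBoundedAtImInfty_sum _ _ fun q _ =>
      Filter.BoundedAtFilter.mul (isBoundedAtImInfty_quotientFunc_slash f q)
        (isBoundedAtImInfty_esymmOn x _ j)

theorem esymmOn_apply [SlashInvariantFormClass F₂ 𝒢 w] (x : F₂) (s : Finset 𝒬) (j : ℕ) (z : ℍ) :
    esymmOn x s j z = ∑ t ∈ s.powersetCard j, ∏ r ∈ t, quotientFunc x r z := by
  simp [esymmOn, Finset.sum_apply, Finset.prod_apply]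

theorem esymmAux_zero [SlashInvariantFormClass F₂ 𝒢 w] (x : F₂) : esymmAux x 0 = 1 := by
  ext z
  simp [esymmAux, esymmOn_apply]

/-- The base coset. -/
def baseCoset (𝒢 : Subgroup (GL (Fin 2) ℝ)) : 𝒮ℒ ⧸ 𝒢.subgroupOf 𝒮ℒ := ⟦1⟧

theorem quotientFunc_baseCoset [SlashInvariantFormClass F₂ 𝒢 w] (x : F₂) :
    quotientFunc x (baseCoset 𝒢) = ⇑x := by
  simp [baseCoset]

theorem integrality_relation [SlashInvariantFormClass F₂ 𝒢 w] (x : F₂) :
    ∑ j ∈ Finset.range (Fintype.card 𝒬 + 1),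
      ((-1 : ℂ) ^ j • esymmAux x j) * (⇑x) ^ (Fintype.card 𝒬 - j) = 0 := by
  classical
  ext z
  have h := prod_sub_eq_sum_esymm (Finset.univ : Finset 𝒬) (fun q => quotientFunc x q z) (x z)
  rw [Finset.card_univ] at h
  have h0 : ∏ r : 𝒬, (x z - quotientFunc x r z) = 0 :=
    Finset.prod_eq_zero (Finset.mem_univ (baseCoset 𝒢)) (by rw [quotientFunc_baseCoset]; simp)
  rw [h0] at h
  simp only [Finset.sum_apply, Pi.mul_apply, Pi.smul_apply, Pi.pow_apply, esymmAux, esymmOn_apply,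
    smul_eq_mul, Pi.zero_apply]
  exact h.symm

open scoped Classical in
theorem lagrange_relation [SlashInvariantFormClass F₁ 𝒢 k] [SlashInvariantFormClass F₂ 𝒢 w]
    (f : F₁) (x : F₂) :
    ∑ j ∈ Finset.range (Fintype.card 𝒬),
      ((-1 : ℂ) ^ j • mixedAux f x j) * (⇑x) ^ (Fintype.card 𝒬 - 1 - j) =
      ⇑f * ∏ r ∈ Finset.univ.erase (baseCoset 𝒢), (⇑x - quotientFunc x r) := by
  ext z
  have hcard : ∀ q : 𝒬, (Finset.univ.erase q).card = Fintype.card 𝒬 - 1 := fun q => by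
    rw [Finset.card_erase_of_mem (Finset.mem_univ q), Finset.card_univ]
  have hpos : Fintype.card 𝒬 - 1 + 1 = Fintype.card 𝒬 :=
    Nat.sub_add_cancel (Fintype.card_pos_iff.mpr ⟨baseCoset 𝒢⟩)
  have h : ∀ q : 𝒬, ∏ r ∈ Finset.univ.erase q, (x z - quotientFunc x r z) =
      ∑ j ∈ Finset.range (Fintype.card 𝒬),
        (-1) ^ j * esymmOn x (Finset.univ.erase q) j z * x z ^ (Fintype.card 𝒬 - 1 - j) := by
    intro q
    rw [prod_sub_eq_sum_esymm, hcard, hpos]
    simp only [esymmOn_apply]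
  have h0 : ∑ q : 𝒬, quotientFunc f q z * ∏ r ∈ Finset.univ.erase q,
      (x z - quotientFunc x r z) =
      f z * ∏ r ∈ Finset.univ.erase (baseCoset 𝒢), (x z - quotientFunc x r z) := by
    rw [Finset.sum_eq_single (baseCoset 𝒢)]
    · rw [quotientFunc_baseCoset]
    · intro q _ hq
      rw [Finset.prod_eq_zero (i := baseCoset 𝒢) (Finset.mem_erase.mpr ⟨hq.symm, Finset.mem_univ _⟩)
        (by rw [quotientFunc_baseCoset]; simp), mul_zero]
    · intro hn
      exact absurd (Finset.mem_univ _) hn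
  simp only [Finset.sum_apply, Pi.mul_apply, Pi.smul_apply, Pi.pow_apply, smul_eq_mul,
    Finset.prod_apply, Pi.sub_apply]
  rw [← h0]
  simp only [h, mixedAux, Finset.sum_apply, Pi.mul_apply, Finset.mul_sum, Finset.sum_mul]
  rw [Finset.sum_comm]
  refine Finset.sum_congr rfl fun q _ => Finset.sum_congr rfl fun j _ => ?_
  ring

theorem IsLevelOne.smul {w : ℤ} {F : ℍ → ℂ} (h : IsLevelOne w F) (a : ℂ) :
    IsLevelOne w (a • F) := by
  obtain ⟨c, rfl⟩ := h
  exact ⟨a • c, rfl⟩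

theorem IsLevelOneCusp.smul {w : ℤ} {F : ℍ → ℂ} (h : IsLevelOneCusp w F) (a : ℂ) :
    IsLevelOneCusp w (a • F) := by
  obtain ⟨c, rfl⟩ := h
  exact ⟨a • c, rfl⟩

/-- Every cusp form of level `𝒢` is integral over the level one cusp forms. -/
theorem exists_integrality_aux [CuspFormClass F₁ 𝒢 k] (f : F₁) :
    ∃ (n : ℕ) (p : ℕ → ℍ → ℂ), p 0 = 1 ∧ (∀ i : ℕ, 1 ≤ i → IsLevelOneCusp (k * i) (p i)) ∧
      ∑ i ∈ Finset.range (n + 1), p i * (⇑f) ^ (n - i) = 0 := by
  refine ⟨Fintype.card 𝒬, fun i => (-1 : ℂ) ^ i • esymmAux f i, ?_, fun i hi => ?_,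
    integrality_relation f⟩
  · simp [esymmAux_zero]
  · exact (isLevelOneCusp_esymmAux f i hi).smul _

open scoped Classical in
/-- Lagrange interpolation: `f * B = A` with `A`, `B` polynomials in `x` with level one
coefficients. -/
theorem exists_representation_aux [𝒢.HasDetPlusMinusOne] [ModularFormClass F₁ 𝒢 k]
    [ModularFormClass F₂ 𝒢 w] (f : F₁) (x : F₂)
    (hx : ∀ q : 𝒬, q ≠ baseCoset 𝒢 → quotientFunc x q ≠ ⇑x) :
    ∃ (n : ℕ) (b c : ℕ → ℍ → ℂ),
      (∀ j : ℕ, IsLevelOne (0 + w * j) (b j)) ∧ (∀ j : ℕ, IsLevelOne (k + w * j) (c j)) ∧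
      (∑ j ∈ Finset.range n, b j * (⇑x) ^ (n - 1 - j) ≠ 0) ∧
      ⇑f * ∑ j ∈ Finset.range n, b j * (⇑x) ^ (n - 1 - j) =
        ∑ j ∈ Finset.range n, c j * (⇑x) ^ (n - 1 - j) := by
  have hB := lagrange_relation (1 : ModularForm 𝒢 0) x
  rw [ModularForm.one_coe_eq_one, one_mul] at hB
  refine ⟨Fintype.card 𝒬, fun j => (-1 : ℂ) ^ j • mixedAux (1 : ModularForm 𝒢 0) x j,
    fun j => (-1 : ℂ) ^ j • mixedAux f x j, fun j => ?_, fun j => ?_, ?_, ?_⟩
  · exact (isLevelOne_mixedAux (1 : ModularForm 𝒢 0) x j).smul _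
  · exact (isLevelOne_mixedAux f x j).smul _
  · rw [hB]
    intro h0
    rw [UpperHalfPlane.prod_eq_zero_iff
      (fun r _ => (ModularFormClass.holo x).sub (mdiff_quotientFunc x r))] at h0
    obtain ⟨r, hr, h0⟩ := h0
    exact hx r (Finset.mem_erase.mp hr).1 (sub_eq_zero.mp h0).symm
  · rw [hB, lagrange_relation f x]

end translates

end

end Fermat.Agent.S23
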