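import Mathlib

/-!
# S23, part (G), T4: removable singularities for quotients integral over holomorphic functions
-/

set_option autoImplicit false
set_option linter.style.haveILetI false

open UpperHalfPlane Filter Topology
open scoped Manifold

namespace Fermat.Agent.S23

/-- Cauchy's bound for the roots of a monic polynomial. -/
theorem norm_le_sum_of_monic_root (n : ℕ) (c : ℕ → ℂ) (hc0 : c 0 = 1) (h : ℂ)
    (hrel : ∑ i ∈ Finset.range (n + 1), c i * h ^ (n - i) = 0) :
    ‖h‖ ≤ ∑ i ∈ Finset.range (n + 1), ‖c i‖ := by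
  by_cases h1 : ‖h‖ ≤ 1
  · calc ‖h‖ ≤ 1 := h1
      _ = ‖c 0‖ := by rw [hc0, norm_one]
      _ ≤ ∑ i ∈ Finset.range (n + 1), ‖c i‖ :=
        Finset.single_le_sum (f := fun i => ‖c i‖) (fun i _ => norm_nonneg _)
          (Finset.mem_range.mpr (Nat.succ_pos n))
  · push Not at h1
    rw [Finset.sum_range_succ', hc0, one_mul, Nat.sub_zero] at hrel
    have hpow : h ^ n = -∑ i ∈ Finset.range n, c (i + 1) * h ^ (n - (i + 1)) := by
      linear_combination hrel
    have hn : n ≠ 0 := by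
      rintro rfl
      simp at hpow
    obtain ⟨m, rfl⟩ := Nat.exists_eq_succ_of_ne_zero hn
    have hpos : 0 < ‖h‖ ^ m := pow_pos (by linarith) m
    have hle : ‖h‖ ^ (m + 1) ≤ (∑ i ∈ Finset.range (m + 1), ‖c (i + 1)‖) * ‖h‖ ^ m := by
      calc ‖h‖ ^ (m + 1) = ‖h ^ (m + 1)‖ := (norm_pow _ _).symm
        _ = ‖∑ i ∈ Finset.range (m + 1), c (i + 1) * h ^ (m + 1 - (i + 1))‖ := by
          rw [hpow, norm_neg]
        _ ≤ ∑ i ∈ Finset.range (m + 1), ‖c (i + 1) * h ^ (m + 1 - (i + 1))‖ := norm_sum_le _ _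
        _ ≤ ∑ i ∈ Finset.range (m + 1), ‖c (i + 1)‖ * ‖h‖ ^ m := by
          apply Finset.sum_le_sum
          intro i _
          rw [norm_mul, norm_pow]
          apply mul_le_mul_of_nonneg_left _ (norm_nonneg _)
          exact pow_le_pow_right₀ h1.le (by omega)
        _ = (∑ i ∈ Finset.range (m + 1), ‖c (i + 1)‖) * ‖h‖ ^ m := by
          rw [Finset.sum_mul]
    have h2 : ‖h‖ ≤ ∑ i ∈ Finset.range (m + 1), ‖c (i + 1)‖ := by
      rw [pow_succ'] at hle
      exact le_of_mul_le_mul_right hle hpos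
    calc ‖h‖ ≤ ∑ i ∈ Finset.range (m + 1), ‖c (i + 1)‖ := h2
      _ ≤ ∑ i ∈ Finset.range (m + 1), ‖c (i + 1)‖ + ‖c 0‖ := le_add_of_nonneg_right (norm_nonneg _)
      _ = ∑ i ∈ Finset.range (m + 1 + 1), ‖c i‖ :=
        (Finset.sum_range_succ' (fun i => ‖c i‖) (m + 1)).symm

/-- The upper half plane as a subset of `ℂ` is preconnected. -/
theorem isPreconnected_upperHalfPlaneSet : IsPreconnected {z : ℂ | 0 < z.im} :=
  (convex_halfSpace_im_gt 0).isPreconnected

/-- Removable singularities, on an open preconnected subset of `ℂ`. -/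
theorem exists_differentiableOn_of_integral {U : Set ℂ} (hU : IsOpen U) (hUc : IsPreconnected U)
    (n : ℕ) (a b : ℂ → ℂ) (p : ℕ → ℂ → ℂ)
    (ha : DifferentiableOn ℂ a U) (hb : DifferentiableOn ℂ b U) (hb0 : ∃ z ∈ U, b z ≠ 0)
    (hp : ∀ i, DifferentiableOn ℂ (p i) U) (hp0 : ∀ z ∈ U, p 0 z = 1)
    (hrel : ∀ z ∈ U, ∑ i ∈ Finset.range (n + 1), p i z * a z ^ (n - i) * b z ^ i = 0) :
    ∃ F : ℂ → ℂ, DifferentiableOn ℂ F U ∧ ∀ z ∈ U, F z * b z = a z := by
  classical
  set h : ℂ → ℂ := fun z => a z / b z with hh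
  set F : ℂ → ℂ := fun z => if b z = 0 then limUnder (𝓝[≠] z) h else h z with hF
  have hban : AnalyticOnNhd ℂ b U := hb.analyticOnNhd hU
  -- zeros of b are isolated
  have hiso : ∀ z₀ ∈ U, ∀ᶠ z in 𝓝[≠] z₀, b z ≠ 0 := by
    intro z₀ hz₀
    rcases (hban z₀ hz₀).eventually_eq_zero_or_eventually_ne_zero with h0 | h0
    · exfalso
      obtain ⟨z₁, hz₁, hbz₁⟩ := hb0
      exact hbz₁ (hban.eqOn_zero_of_preconnected_of_eventuallyEq_zero hUc hz₀ h0 hz₁)
    · exact h0
  -- the bound on h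
  have hbound : ∀ z ∈ U, b z ≠ 0 → ‖h z‖ ≤ ∑ i ∈ Finset.range (n + 1), ‖p i z‖ := by
    intro z hz hbz
    apply norm_le_sum_of_monic_root n (fun i => p i z) (hp0 z hz)
    have h1 := hrel z hz
    have h2 : ∑ i ∈ Finset.range (n + 1), p i z * h z ^ (n - i) =
        (∑ i ∈ Finset.range (n + 1), p i z * a z ^ (n - i) * b z ^ i) / b z ^ n := by
      rw [Finset.sum_div]
      apply Finset.sum_congr rfl
      intro i hi
      have hi' : i ≤ n := Nat.lt_succ_iff.mp (Finset.mem_range.mp hi)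
      have hbn : b z ^ n = b z ^ (n - i) * b z ^ i := by
        rw [← pow_add, Nat.sub_add_cancel hi']
      rw [hh]
      simp only
      rw [div_pow, hbn]
      have h3 : b z ^ (n - i) ≠ 0 := pow_ne_zero _ hbz
      have h4 : b z ^ i ≠ 0 := pow_ne_zero _ hbz
      field_simp
    rw [h2, h1, zero_div]
  -- the main local statement
  have hmain : ∀ z₀ ∈ U, DifferentiableAt ℂ F z₀ ∧ F z₀ * b z₀ = a z₀ := by
    intro z₀ hz₀
    have haz : DifferentiableAt ℂ a z₀ := ha.differentiableAt (hU.mem_nhds hz₀)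
    have hbz : DifferentiableAt ℂ b z₀ := hb.differentiableAt (hU.mem_nhds hz₀)
    by_cases hb₀ : b z₀ = 0
    · -- a zero of b
      -- local bound on the coefficients
      have hcont : ContinuousAt (fun z => ∑ i ∈ Finset.range (n + 1), ‖p i z‖) z₀ := by
        apply tendsto_finsetSum
        intro i _
        exact ((hp i).differentiableAt (hU.mem_nhds hz₀)).continuousAt.norm
      have hev1 : ∀ᶠ z in 𝓝 z₀, (∑ i ∈ Finset.range (n + 1), ‖p i z‖) <
          (∑ i ∈ Finset.range (n + 1), ‖p i z₀‖) + 1 :=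
        hcont.eventually (gt_mem_nhds (lt_add_one _))
      have hev2 : ∀ᶠ z in 𝓝 z₀, z ∈ U := hU.mem_nhds hz₀
      have hev3 : ∀ᶠ z in 𝓝 z₀, z ≠ z₀ → b z ≠ 0 := by
        have := hiso z₀ hz₀
        rw [eventually_nhdsWithin_iff] at this
        exact this
      obtain ⟨s, hs_sub, hs_open, hz₀s⟩ :=
        eventually_nhds_iff.mp (hev1.and (hev2.and hev3))
      -- here `s` is an open nhd of z₀ with all three properties
      have hs_nhds : s ∈ 𝓝 z₀ := hs_open.mem_nhds hz₀s
      have hd : DifferentiableOn ℂ h (s \ {z₀}) := by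
        intro z hz
        have hzU : z ∈ U := (hs_sub z hz.1).2.1
        have hbz' : b z ≠ 0 := (hs_sub z hz.1).2.2 hz.2
        exact ((ha.differentiableAt (hU.mem_nhds hzU)).div
          (hb.differentiableAt (hU.mem_nhds hzU)) hbz').differentiableWithinAt
      have hbdd : BddAbove (norm ∘ h '' (s \ {z₀})) := by
        refine ⟨(∑ i ∈ Finset.range (n + 1), ‖p i z₀‖) + 1, ?_⟩
        rintro _ ⟨z, hz, rfl⟩
        have hzU : z ∈ U := (hs_sub z hz.1).2.1
        have hbz' : b z ≠ 0 := (hs_sub z hz.1).2.2 hz.2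
        exact (hbound z hzU hbz').trans (hs_sub z hz.1).1.le
      have hg := Complex.differentiableOn_update_limUnder_of_bddAbove hs_nhds hd hbdd
      set g := Function.update h z₀ (limUnder (𝓝[≠] z₀) h) with hgdef
      have hFg : ∀ z ∈ s, F z = g z := by
        intro z hz
        by_cases hzz : z = z₀
        · subst hzz
          simp [hF, hgdef, hb₀]
        · have hbz' : b z ≠ 0 := (hs_sub z hz).2.2 hzz
          simp [hF, hgdef, hbz', Function.update_of_ne hzz]
      have hFg' : F =ᶠ[𝓝 z₀] g := by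
        filter_upwards [hs_nhds] with z hz using hFg z hz
      have hgd : DifferentiableAt ℂ g z₀ := hg.differentiableAt hs_nhds
      refine ⟨hgd.congr_of_eventuallyEq hFg', ?_⟩
      rw [hb₀, mul_zero]
      -- a z₀ = 0 by continuity
      have ht1 : Tendsto (fun z => g z * b z) (𝓝[≠] z₀) (𝓝 (g z₀ * b z₀)) :=
        ((hgd.continuousAt.mul hbz.continuousAt).tendsto).mono_left nhdsWithin_le_nhds
      have ht2 : Tendsto a (𝓝[≠] z₀) (𝓝 (a z₀)) :=
        haz.continuousAt.tendsto.mono_left nhdsWithin_le_nhds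
      have heq : (fun z => g z * b z) =ᶠ[𝓝[≠] z₀] a := by
        rw [Filter.EventuallyEq, eventually_nhdsWithin_iff]
        filter_upwards [hs_nhds] with z hz hzz
        have hbz' : b z ≠ 0 := (hs_sub z hz).2.2 hzz
        have : g z = h z := by simp [hgdef, Function.update_of_ne hzz]
        rw [this, hh]
        simp only
        field_simp
      have := tendsto_nhds_unique (ht1.congr' heq) ht2
      rw [hb₀, mul_zero] at this
      exact this
    · -- b z₀ ≠ 0
      have hev : ∀ᶠ z in 𝓝 z₀, b z ≠ 0 := hbz.continuousAt.eventually_ne hb₀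
      have hFh : F =ᶠ[𝓝 z₀] h := by
        filter_upwards [hev] with z hz
        simp [hF, hz]
      refine ⟨(haz.div hbz hb₀).congr_of_eventuallyEq hFh, ?_⟩
      simp only [hF, hb₀, if_false, hh]
      field_simp
  exact ⟨F, fun z hz => (hmain z hz).1.differentiableWithinAt, fun z hz => (hmain z hz).2⟩


theorem coe_ofComplex_of_mem {z : ℂ} (hz : z ∈ {z : ℂ | 0 < z.im}) :
    ((ofComplex z : ℍ) : ℂ) = z := by
  rw [ofComplex_apply_of_im_pos hz]

/-- The ring of holomorphic functions on `ℍ` has no zero divisors. -/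
theorem mdiff_mul_eq_zero (F G : ℍ → ℂ) (hF : MDiff F) (hG : MDiff G) (h : F * G = 0) :
    F = 0 ∨ G = 0 := by
  by_cases hG0 : G = 0
  · exact Or.inr hG0
  left
  obtain ⟨τ₀, hτ₀⟩ : ∃ τ, G τ ≠ 0 := by
    by_contra hcon
    push Not at hcon
    exact hG0 (funext hcon)
  have hFd : DifferentiableOn ℂ (F ∘ ofComplex) {z : ℂ | 0 < z.im} :=
    UpperHalfPlane.mdifferentiable_iff.mp hF
  have hGd : DifferentiableOn ℂ (G ∘ ofComplex) {z : ℂ | 0 < z.im} :=
    UpperHalfPlane.mdifferentiable_iff.mp hG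
  have hFan : AnalyticOnNhd ℂ (F ∘ ofComplex) {z : ℂ | 0 < z.im} :=
    hFd.analyticOnNhd isOpen_upperHalfPlaneSet
  have hτ₀U : (τ₀ : ℂ) ∈ {z : ℂ | 0 < z.im} := τ₀.im_pos
  have hGc : ContinuousAt (G ∘ ofComplex) (τ₀ : ℂ) :=
    (hGd.differentiableAt (isOpen_upperHalfPlaneSet.mem_nhds hτ₀U)).continuousAt
  have hGne : ∀ᶠ z in 𝓝 (τ₀ : ℂ), (G ∘ ofComplex) z ≠ 0 := by
    apply hGc.eventually_ne
    simpa [Function.comp_apply, ofComplex_apply] using hτ₀
  have hF0 : (F ∘ ofComplex) =ᶠ[𝓝 (τ₀ : ℂ)] 0 := by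
    filter_upwards [hGne] with z hz
    have := congrFun h (ofComplex z)
    simp only [Pi.mul_apply, Pi.zero_apply, mul_eq_zero] at this
    exact this.resolve_right hz
  have hall := hFan.eqOn_zero_of_preconnected_of_eventuallyEq_zero
    isPreconnected_upperHalfPlaneSet hτ₀U hF0
  funext τ
  have := hall (τ.im_pos : (τ : ℂ) ∈ {z : ℂ | 0 < z.im})
  simpa [Function.comp_apply, ofComplex_apply] using this

/-- **Removable singularities**: if `A / B` is integral over the ring of holomorphic functions on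
`ℍ`, then it is holomorphic. -/
theorem exists_mdiff_of_integral (n : ℕ) (A B : ℍ → ℂ) (p : ℕ → ℍ → ℂ)
    (hA : MDiff A) (hB : MDiff B) (hB0 : B ≠ 0) (hp : ∀ i, MDiff (p i)) (hp0 : p 0 = 1)
    (hrel : ∑ i ∈ Finset.range (n + 1), p i * A ^ (n - i) * B ^ i = 0) :
    ∃ F : ℍ → ℂ, MDiff F ∧ F * B = A := by
  obtain ⟨τ₀, hτ₀⟩ : ∃ τ, B τ ≠ 0 := by
    by_contra hcon
    push Not at hcon
    exact hB0 (funext hcon)
  obtain ⟨F, hFd, hFB⟩ := exists_differentiableOn_of_integral isOpen_upperHalfPlaneSet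
    isPreconnected_upperHalfPlaneSet n (A ∘ ofComplex) (B ∘ ofComplex)
    (fun i => p i ∘ ofComplex)
    (UpperHalfPlane.mdifferentiable_iff.mp hA) (UpperHalfPlane.mdifferentiable_iff.mp hB)
    ⟨(τ₀ : ℂ), τ₀.im_pos, by simpa [Function.comp_apply, ofComplex_apply] using hτ₀⟩
    (fun i => UpperHalfPlane.mdifferentiable_iff.mp (hp i))
    (fun z _ => by simp [hp0])
    (fun z _ => by
      have := congrFun hrel (ofComplex z)
      simpa [Finset.sum_apply] using this)
  refine ⟨fun τ => F (τ : ℂ), ?_, ?_⟩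
  · rw [UpperHalfPlane.mdifferentiable_iff]
    intro z hz
    have hFz : DifferentiableAt ℂ F z := hFd.differentiableAt (isOpen_upperHalfPlaneSet.mem_nhds hz)
    have heq : ((fun τ : ℍ => F (τ : ℂ)) ∘ ofComplex) =ᶠ[𝓝 z] F := by
      filter_upwards [isOpen_upperHalfPlaneSet.mem_nhds hz] with w hw
      simp only [Function.comp_apply]
      rw [coe_ofComplex_of_mem hw]
    exact (hFz.congr_of_eventuallyEq heq).differentiableWithinAt
  · funext τ
    have := hFB (τ : ℂ) τ.im_pos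
    simpa [Function.comp_apply, ofComplex_apply] using this

end Fermat.Agent.S23
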