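import Mathlib
import Fermat.Statements.S23
import Fermat.Agent.S23.Conj
import Fermat.Agent.S23.Esymm
import Fermat.Agent.S23.Removable

/-!
# S23, part 5b: Galois stability of `S_k(Γ₀(N))`
-/

set_option autoImplicit false

open UpperHalfPlane ModularForm CongruenceSubgroup SlashInvariantForm Filter
open scoped MatrixGroups ModularForm Manifold Topology

namespace Fermat.Agent.S23

noncomputable section

/-- A root of a monic polynomial whose lower coefficients are small is small. -/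
theorem pow_norm_le_of_monic_root (n : ℕ) (c : ℕ → ℂ) (hc0 : c 0 = 1) (h : ℂ)
    (hrel : ∑ i ∈ Finset.range (n + 1), c i * h ^ (n - i) = 0)
    (hS : ∑ i ∈ Finset.range n, ‖c (i + 1)‖ < 1) :
    ‖h‖ ^ n ≤ ∑ i ∈ Finset.range n, ‖c (i + 1)‖ := by
  rw [Finset.sum_range_succ', hc0, one_mul, Nat.sub_zero] at hrel
  have hpow : h ^ n = -∑ i ∈ Finset.range n, c (i + 1) * h ^ (n - (i + 1)) := by
    linear_combination hrel
  have hle : ‖h‖ ^ n ≤ ∑ i ∈ Finset.range n, ‖c (i + 1)‖ * ‖h‖ ^ (n - (i + 1)) := by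
    calc ‖h‖ ^ n = ‖h ^ n‖ := (norm_pow _ _).symm
      _ = ‖∑ i ∈ Finset.range n, c (i + 1) * h ^ (n - (i + 1))‖ := by rw [hpow, norm_neg]
      _ ≤ ∑ i ∈ Finset.range n, ‖c (i + 1) * h ^ (n - (i + 1))‖ := norm_sum_le _ _
      _ = ∑ i ∈ Finset.range n, ‖c (i + 1)‖ * ‖h‖ ^ (n - (i + 1)) := by
        simp only [norm_mul, norm_pow]
  by_cases h1 : ‖h‖ ≤ 1
  · refine hle.trans (Finset.sum_le_sum fun i _ => ?_)
    exact mul_le_of_le_one_right (norm_nonneg _) (pow_le_one₀ (norm_nonneg _) h1)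
  · push Not at h1
    exfalso
    obtain ⟨m, rfl⟩ : ∃ m, n = m + 1 := by
      rcases n with _ | m
      · simp at hle
        linarith
      · exact ⟨m, rfl⟩
    have h2 : ‖h‖ ^ (m + 1) ≤ (∑ i ∈ Finset.range (m + 1), ‖c (i + 1)‖) * ‖h‖ ^ m := by
      refine hle.trans ?_
      rw [Finset.sum_mul]
      refine Finset.sum_le_sum fun i _ => ?_
      apply mul_le_mul_of_nonneg_left _ (norm_nonneg _)
      exact pow_le_pow_right₀ h1.le (by omega)
    have hpos : 0 < ‖h‖ ^ m := pow_pos (by linarith) m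
    have h3 : ‖h‖ ≤ ∑ i ∈ Finset.range (m + 1), ‖c (i + 1)‖ := by
      rw [pow_succ'] at h2
      exact le_of_mul_le_mul_right h2 hpos
    linarith

/-- A function which is a root of a monic polynomial whose lower coefficients tend to zero
tends to zero. -/
theorem tendsto_zero_of_monic_root {α : Type*} (l : Filter α) (n : ℕ) (c : ℕ → α → ℂ)
    (G : α → ℂ) (hc0 : c 0 = 1) (hc : ∀ i, 1 ≤ i → Tendsto (c i) l (𝓝 0))
    (hrel : ∑ i ∈ Finset.range (n + 1), c i * G ^ (n - i) = 0) : Tendsto G l (𝓝 0) := by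
  have hS : Tendsto (fun z => ∑ i ∈ Finset.range n, ‖c (i + 1) z‖) l (𝓝 0) := by
    have : Tendsto (fun z => ∑ i ∈ Finset.range n, ‖c (i + 1) z‖) l
        (𝓝 (∑ _i ∈ Finset.range n, (0 : ℝ))) :=
      tendsto_finsetSum _ fun i _ => by
        simpa using (hc (i + 1) (by omega)).norm
    simpa using this
  rw [Metric.tendsto_nhds]
  intro ε hε
  have hpos : 0 < min 1 (ε ^ n) := lt_min one_pos (pow_pos hε n)
  filter_upwards [(Metric.tendsto_nhds.mp hS) _ hpos] with z hz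
  rw [dist_zero_right] at hz ⊢
  rw [Real.norm_of_nonneg (Finset.sum_nonneg fun i _ => norm_nonneg _)] at hz
  have hrelz : ∑ i ∈ Finset.range (n + 1), c i z * G z ^ (n - i) = 0 := by
    simpa using congrFun hrel z
  have h1 := pow_norm_le_of_monic_root n (fun i => c i z) (by rw [hc0]; rfl) (G z) hrelz
    (hz.trans_le (min_le_left _ _))
  exact lt_of_pow_lt_pow_left₀ n hε.le (h1.trans_lt (hz.trans_le (min_le_right _ _)))

theorem pow_slash_of_mem {k : ℤ} (F : ℍ → ℂ) (j : ℕ) {γ : GL (Fin 2) ℝ} (hγ : γ ∈ 𝒮ℒ) :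
    (F ^ j) ∣[k * j] γ = (F ∣[k] γ) ^ j := by
  have h := ModularForm.prod_slash (k := k) (g := γ) (f := fun _ : ℕ => F) (s := Finset.range j)
  simpa [Finset.prod_const, Subgroup.HasDetPlusMinusOne.abs_det hγ,
    -Matrix.GeneralLinearGroup.val_det_apply] using h

theorem mul_slash_of_mem {k₁ k₂ : ℤ} (F G : ℍ → ℂ) {γ : GL (Fin 2) ℝ} (hγ : γ ∈ 𝒮ℒ) :
    (F * G) ∣[k₁ + k₂] γ = (F ∣[k₁] γ) * (G ∣[k₂] γ) := by
  rw [ModularForm.mul_slash]
  simp [Subgroup.HasDetPlusMinusOne.abs_det hγ, -Matrix.GeneralLinearGroup.val_det_apply]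

theorem one_slash_of_mem {γ : GL (Fin 2) ℝ} (hγ : γ ∈ 𝒮ℒ) :
    (1 : ℍ → ℂ) ∣[(0 : ℤ)] γ = 1 := by
  have h := (1 : ModularForm 𝒮ℒ 0).slash_action_eq' γ hγ
  simpa using h

theorem IsLevelOneCusp.slash_eq {w : ℤ} {F : ℍ → ℂ} (h : IsLevelOneCusp w F)
    {γ : GL (Fin 2) ℝ} (hγ : γ ∈ 𝒮ℒ) : F ∣[w] γ = F := by
  obtain ⟨c, rfl⟩ := h
  exact c.slash_action_eq' γ hγ

theorem IsLevelOneCusp.isZeroAtImInfty {w : ℤ} {F : ℍ → ℂ} (h : IsLevelOneCusp w F) :
    IsZeroAtImInfty F := by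
  obtain ⟨c, rfl⟩ := h
  exact CuspFormClass.zero_at_infty c

/-- The slash of a monic relation. -/
theorem relation_slash {k : ℤ} (n : ℕ) (P : ℕ → ℍ → ℂ) (F : ℍ → ℂ) {γ : GL (Fin 2) ℝ}
    (hγ : γ ∈ 𝒮ℒ) (hP : ∀ i : ℕ, P i ∣[k * i] γ = P i)
    (hrel : ∑ i ∈ Finset.range (n + 1), P i * F ^ (n - i) = 0) :
    ∑ i ∈ Finset.range (n + 1), P i * (F ∣[k] γ) ^ (n - i) = 0 := by
  have h := congrArg (fun f => f ∣[k * n] γ) hrel
  simp only [SlashAction.sum_slash, SlashAction.zero_slash] at h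
  rw [← h]
  refine Finset.sum_congr rfl fun i hi => ?_
  have hi' : i ≤ n := Nat.lt_succ_iff.mp (Finset.mem_range.mp hi)
  have hw : k * n = k * i + k * ((n - i : ℕ) : ℤ) := by
    rw [Nat.cast_sub hi']
    ring
  rw [hw, mul_slash_of_mem _ _ hγ, pow_slash_of_mem _ _ hγ, hP]

section main

variable {N : ℕ} [NeZero N]

local notation "Γ₀" => (Gamma0 N : Subgroup (GL (Fin 2) ℝ))

/-- Galois stability, given a suitable primitive element `x`. -/
theorem exists_conj_of {w : ℤ} (x : ModularForm Γ₀ w) (σ : ℂ →+* ℂ)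
    (hxσ : (qExpansion 1 x).map σ = qExpansion 1 x)
    (hx : ∀ q : 𝒮ℒ ⧸ (Γ₀).subgroupOf 𝒮ℒ, q ≠ baseCoset Γ₀ → quotientFunc x q ≠ ⇑x)
    {k : ℤ} (f : CuspForm Γ₀ k) :
    ∃ g : CuspForm Γ₀ k, qExpansion 1 g = (qExpansion 1 f).map σ := by
  obtain ⟨n, p, hp0, hp, hrel⟩ := exists_integrality_aux f
  obtain ⟨m, b, c, hb, hc, hB0, hfB⟩ := exists_representation_aux f x hx
  have hxc : IsConj σ N w x x := ⟨x, x, rfl, rfl, hxσ.symm⟩
  choose! p' hp'1 hp'2 using fun i (hi : 1 ≤ i) => isConj_of_levelOneCusp σ N (hp i hi)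
  choose b' hb'1 hb'2 using fun j => isConj_of_levelOne σ N (hb j)
  choose c' hc'1 hc'2 using fun j => isConj_of_levelOne σ N (hc j)
  -- the conjugate coefficients of the monic relation
  set P : ℕ → ℍ → ℂ := fun i => if i = 0 then 1 else p' i with hPdef
  have hP0 : P 0 = 1 := by simp [hPdef]
  have hPs : ∀ i, 1 ≤ i → P i = p' i := fun i hi => by
    simp [hPdef, Nat.one_le_iff_ne_zero.mp hi]
  have hP : ∀ i : ℕ, IsConj σ N (k * i) (p i) (P i) := by
    intro i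
    rcases Nat.eq_zero_or_pos i with rfl | hi
    · rw [hP0, hp0]
      exact IsConj.one.cast (by simp)
    · rw [hPs i hi]
      exact hp'2 i hi
  -- numerators and denominators
  set A : ℍ → ℂ := ∑ j ∈ Finset.range m, c j * (⇑x) ^ (m - 1 - j) with hA
  set B : ℍ → ℂ := ∑ j ∈ Finset.range m, b j * (⇑x) ^ (m - 1 - j) with hB
  set A' : ℍ → ℂ := ∑ j ∈ Finset.range m, c' j * (⇑x) ^ (m - 1 - j) with hA'
  set B' : ℍ → ℂ := ∑ j ∈ Finset.range m, b' j * (⇑x) ^ (m - 1 - j) with hB'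
  have hwt : ∀ j ∈ Finset.range m,
      w * j + w * ((m - 1 - j : ℕ) : ℤ) = w * ((m - 1 : ℕ) : ℤ) := by
    intro j hj
    have hj' : j ≤ m - 1 := by
      have := Finset.mem_range.mp hj
      omega
    rw [Nat.cast_sub hj']
    ring
  have hAc : IsConj σ N (k + w * ((m - 1 : ℕ) : ℤ)) A A' :=
    IsConj.sum _ _ _ fun j hj =>
      ((hc'2 j).mul (hxc.pow (m - 1 - j))).cast (by rw [← hwt j hj]; ring)
  have hBc : IsConj σ N (w * ((m - 1 : ℕ) : ℤ)) B B' :=
    IsConj.sum _ _ _ fun j hj =>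
      ((hb'2 j).mul (hxc.pow (m - 1 - j))).cast (by rw [← hwt j hj]; ring)
  -- the relation between `A` and `B` and its conjugate
  have hR : ∑ i ∈ Finset.range (n + 1), p i * A ^ (n - i) * B ^ i = 0 := by
    have h1 : ∀ i ∈ Finset.range (n + 1),
        p i * A ^ (n - i) * B ^ i = (p i * (⇑f) ^ (n - i)) * B ^ n := by
      intro i hi
      have hi' : i ≤ n := Nat.lt_succ_iff.mp (Finset.mem_range.mp hi)
      rw [← hfB, mul_pow]
      calc p i * ((⇑f) ^ (n - i) * B ^ (n - i)) * B ^ i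
          = p i * (⇑f) ^ (n - i) * (B ^ (n - i) * B ^ i) := by ring
        _ = p i * (⇑f) ^ (n - i) * B ^ n := by rw [← pow_add, Nat.sub_add_cancel hi']
    rw [Finset.sum_congr rfl h1, ← Finset.sum_mul, hrel, zero_mul]
  have hRc : IsConj σ N (k * n + w * ((m - 1 : ℕ) : ℤ) * n)
      (∑ i ∈ Finset.range (n + 1), p i * A ^ (n - i) * B ^ i)
      (∑ i ∈ Finset.range (n + 1), P i * A' ^ (n - i) * B' ^ i) :=
    IsConj.sum _ _ _ fun i hi =>
      (((hP i).mul (hAc.pow (n - i))).mul (hBc.pow i)).cast (by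
        have hi' : i ≤ n := Nat.lt_succ_iff.mp (Finset.mem_range.mp hi)
        rw [Nat.cast_sub hi']
        ring)
  have hR' : ∑ i ∈ Finset.range (n + 1), P i * A' ^ (n - i) * B' ^ i = 0 := by
    rw [hR] at hRc
    exact hRc.eq_zero
  have hB'0 : B' ≠ 0 := hBc.ne_zero hB0
  -- the conjugate function
  obtain ⟨F, hFd, hFB⟩ := exists_mdiff_of_integral n A' B' P hAc.mdiff_right hBc.mdiff_right
    hB'0 (fun i => (hP i).mdiff_right) hP0 hR'
  have hBn : B' ^ n ≠ 0 := by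
    obtain ⟨z, hz⟩ := Function.ne_iff.mp hB'0
    exact fun h => pow_ne_zero n hz (by simpa using congrFun h z)
  have hFint : ∑ i ∈ Finset.range (n + 1), P i * F ^ (n - i) = 0 := by
    have h1 : (∑ i ∈ Finset.range (n + 1), P i * F ^ (n - i)) * B' ^ n = 0 := by
      rw [← hR', Finset.sum_mul]
      refine Finset.sum_congr rfl fun i hi => ?_
      have hi' : i ≤ n := Nat.lt_succ_iff.mp (Finset.mem_range.mp hi)
      rw [← hFB, mul_pow]
      calc P i * F ^ (n - i) * B' ^ n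
          = P i * F ^ (n - i) * (B' ^ (n - i) * B' ^ i) := by
            rw [← pow_add, Nat.sub_add_cancel hi']
        _ = P i * (F ^ (n - i) * B' ^ (n - i)) * B' ^ i := by ring
    have hmd : MDiff (∑ i ∈ Finset.range (n + 1), P i * F ^ (n - i)) :=
      .sum fun i _ => ((hP i).mdiff_right).mul (hFd.pow _)
    rcases (UpperHalfPlane.mul_eq_zero_iff hmd (hBc.mdiff_right.pow n)).mp h1 with h | h
    · exact h
    · exact absurd h hBn
  have hFinv : ∀ γ ∈ Γ₀, F ∣[k] γ = F := by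
    intro γ hγ
    have hγ' : γ ∈ 𝒮ℒ := Gamma0_le_SL hγ
    have h1 : (F ∣[k] γ) * B' = F * B' := by
      have h2 := hAc.slash_right γ hγ
      rw [← hFB, mul_slash_of_mem _ _ hγ', hBc.slash_right γ hγ] at h2
      exact h2
    have h3 : (F ∣[k] γ - F) * B' = 0 := by rw [sub_mul, h1, sub_self]
    rcases (UpperHalfPlane.mul_eq_zero_iff ((hFd.slash k γ).sub hFd) hBc.mdiff_right).mp h3
      with h | h
    · exact sub_eq_zero.mp h
    · exact absurd h hB'0
  have hFz : ∀ γ : GL (Fin 2) ℝ, γ ∈ 𝒮ℒ → IsZeroAtImInfty (F ∣[k] γ) := by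
    intro γ hγ
    have hPinv : ∀ i : ℕ, P i ∣[k * i] γ = P i := by
      intro i
      rcases Nat.eq_zero_or_pos i with rfl | hi
      · rw [hP0]
        simpa using one_slash_of_mem hγ
      · rw [hPs i hi]
        exact (hp'1 i hi).slash_eq hγ
    have hrelγ := relation_slash n P F hγ hPinv hFint
    exact tendsto_zero_of_monic_root atImInfty n P (F ∣[k] γ) hP0
      (fun i hi => by rw [hPs i hi]; exact (hp'1 i hi).isZeroAtImInfty) hrelγ
  let g : CuspForm Γ₀ k :=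
    { toFun := F
      slash_action_eq' := hFinv
      holo' := hFd
      zero_at_cusps' := fun {c} hc => by
        rw [Subgroup.IsArithmetic.isCusp_iff_isCusp_SL2Z] at hc
        rw [OnePoint.isZeroAt_iff_forall_SL2Z hc]
        intro γ _
        rw [SL_slash]
        exact hFz _ ⟨γ, rfl⟩ }
  have hgF : ⇑g = F := rfl
  refine ⟨g, ?_⟩
  -- comparison of `q`-expansions
  obtain ⟨aB, bB, haB, hbB, eB⟩ := hBc
  obtain ⟨aA, bA, haA, hbA, eA⟩ := hAc
  have h1 : qExpansion 1 (⇑g * B') = qExpansion 1 g * qExpansion 1 B' := by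
    rw [← hbB]
    exact ModularForm.qExpansion_mul_coe one_pos (one_mem_strictPeriods_Gamma0 N) g bB
  have h2 : qExpansion 1 (⇑f * B) = qExpansion 1 f * qExpansion 1 B := by
    rw [← haB]
    exact ModularForm.qExpansion_mul_coe one_pos (one_mem_strictPeriods_Gamma0 N) f aB
  have h3 : qExpansion 1 g * qExpansion 1 B' = (qExpansion 1 f).map σ * qExpansion 1 B' := by
    rw [← h1, hgF, hFB, eA, ← hfB, h2, map_mul, eB]
  have h4 : qExpansion 1 B' ≠ 0 := by
    rw [← hbB, Ne, ModularForm.qExpansion_eq_zero_iff one_pos (one_mem_strictPeriods_Gamma0 N)]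
    intro h
    exact hB'0 (by rw [← hbB, h]; rfl)
  exact mul_right_cancel₀ h4 h3

end main

end

end Fermat.Agent.S23
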