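import Mathlib
import Fermat.Prelude.Def_CuspForm_HeckeAlgebra
import Fermat.Agent.S49.Hecke

/-!
# S23, part B: bounded denominators

A cusp form of weight 2 on `Γ₀(N)` with rational `q`-expansion coefficients has bounded
denominators, provided the Hecke algebra is a finitely generated `ℤ`-module (S22).
-/

set_option autoImplicit false
set_option linter.style.haveILetI false

open CongruenceSubgroup

namespace Fermat.Agent.S23

open Fermat.Agent.S49

/-- A finitely generated `ℤ`-submodule of `ℚ` has bounded denominators. -/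
theorem exists_denominator_of_fg (M : Submodule ℤ ℚ) (hM : M.FG) :
    ∃ D : ℕ, D ≠ 0 ∧ ∀ x ∈ M, ∃ m : ℤ, (D : ℚ) * x = m := by
  refine Submodule.fg_induction
    (motive := fun M _ => ∃ D : ℕ, D ≠ 0 ∧ ∀ x ∈ M, ∃ m : ℤ, (D : ℚ) * x = m) ?_ ?_ M hM
  · intro q
    refine ⟨q.den, q.den_ne_zero, fun x hx => ?_⟩
    obtain ⟨a, rfl⟩ := Submodule.mem_span_singleton.mp hx
    refine ⟨a * q.num, ?_⟩
    rw [zsmul_eq_mul]
    push_cast
    rw [mul_left_comm, Rat.den_mul_eq_num]
  · rintro M₁ M₂ - - ⟨D₁, hD₁, h₁⟩ ⟨D₂, hD₂, h₂⟩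
    refine ⟨D₁ * D₂, Nat.mul_ne_zero hD₁ hD₂, fun x hx => ?_⟩
    obtain ⟨y, hy, z, hz, rfl⟩ := Submodule.mem_sup.mp hx
    obtain ⟨m₁, hm₁⟩ := h₁ y hy
    obtain ⟨m₂, hm₂⟩ := h₂ z hz
    refine ⟨D₂ * m₁ + D₁ * m₂, ?_⟩
    push_cast
    rw [← hm₁, ← hm₂]
    ring

variable {N : ℕ} [NeZero N]

/-- The `ℤ`-linear map `t ↦ a₁(t f)` on the Hecke algebra. -/
noncomputable def firstCoeffMap (N : ℕ) [NeZero N] (f : CuspForm (Gamma0 N) 2) :
    (CuspForm.heckeAlgebra N 2 (∅ : Set ℕ)) →ₗ[ℤ] ℂ where
  toFun t := qc N 1 ((t : Module.End ℂ (CuspForm (Gamma0 N) 2)) f)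
  map_add' s t := by
    simp [LinearMap.add_apply]
  map_smul' r t := by
    simp

theorem firstCoeffMap_apply (f : CuspForm (Gamma0 N) 2)
    (t : CuspForm.heckeAlgebra N 2 (∅ : Set ℕ)) :
    firstCoeffMap N f t = qc N 1 ((t : Module.End ℂ (CuspForm (Gamma0 N) 2)) f) := rfl

/-- All coefficients of all Hecke translates of `f` lie in the module of first coefficients. -/
theorem qc_mem_range_firstCoeffMap (f : CuspForm (Gamma0 N) 2) (n : ℕ) (hn : 1 ≤ n)
    (t : CuspForm.heckeAlgebra N 2 (∅ : Set ℕ)) :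
    qc N n ((t : Module.End ℂ (CuspForm (Gamma0 N) 2)) f) ∈
      LinearMap.range (firstCoeffMap N f) := by
  induction n using Nat.strong_induction_on generalizing t with
  | _ n ih =>
    rcases Nat.eq_or_lt_of_le hn with h1 | h1
    · subst h1
      exact ⟨t, rfl⟩
    · have hℓ : n.minFac.Prime := Nat.minFac_prime (by omega)
      set ℓ := n.minFac with hℓdef
      obtain ⟨m, hm⟩ : ℓ ∣ n := Nat.minFac_dvd n
      have hm1 : 1 ≤ m := by
        rcases Nat.eq_zero_or_pos m with h0 | h0
        · subst h0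
          omega
        · exact h0
      have hmn : m < n := by
        rw [hm]
        exact lt_mul_of_one_lt_left (by omega) hℓ.one_lt
      have hnm : n = m * ℓ := by rw [hm, mul_comm]
      set g := (t : Module.End ℂ (CuspForm (Gamma0 N) 2)) f with hg
      have hrel := qc_heckeOp ℓ hℓ g m
      rw [← hnm] at hrel
      have hTt : qc N m (heckeOp N ℓ hℓ g) ∈ LinearMap.range (firstCoeffMap N f) := by
        have := ih m hmn hm1 (⟨heckeOp N ℓ hℓ, heckeOp_mem ℓ hℓ⟩ * t)
        simpa [hg] using this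
      have hcorr : corr N (fun j => qc N j g) ℓ m ∈ LinearMap.range (firstCoeffMap N f) := by
        unfold corr
        split_ifs with hN hd
        · exact Submodule.zero_mem _
        · have hq1 : 1 ≤ m / ℓ := by
            obtain ⟨c, hc⟩ := hd
            rw [hc, Nat.mul_div_cancel_left _ hℓ.pos]
            rcases Nat.eq_zero_or_pos c with h0 | h0
            · subst h0
              omega
            · exact h0
          have hq2 : m / ℓ < n := lt_of_le_of_lt (Nat.div_le_self _ _) hmn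
          have := ih (m / ℓ) hq2 hq1 t
          have h3 : (ℓ : ℂ) * qc N (m / ℓ) g = (ℓ : ℤ) • qc N (m / ℓ) g := by
            rw [zsmul_eq_mul]
            push_cast
            rfl
          rw [h3]
          exact Submodule.smul_mem _ _ this
        · exact Submodule.zero_mem _
      have : qc N n g = qc N m (heckeOp N ℓ hℓ g) - corr N (fun j => qc N j g) ℓ m := by
        rw [hrel]
        ring
      rw [this]
      exact Submodule.sub_mem _ hTt hcorr

/-- **Bounded denominators.** -/
theorem exists_nat_smul_int (N : ℕ) [NeZero N]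
    (hfin : Module.Finite ℤ (CuspForm.heckeAlgebra N 2 (∅ : Set ℕ)))
    (f : CuspForm (Gamma0 N) 2)
    (hf : ∀ n, ModularFormClass.qCoeff f n ∈ Set.range (algebraMap ℚ ℂ)) :
    ∃ D : ℕ, D ≠ 0 ∧ ∀ n, ∃ m : ℤ, ModularFormClass.qCoeff (⇑((D : ℂ) • f)) n = m := by
  -- the module of first coefficients
  set M : Submodule ℤ ℂ := LinearMap.range (firstCoeffMap N f) with hMdef
  haveI : Module.Finite ℤ M := Module.Finite.range (firstCoeffMap N f)
  haveI : IsNoetherian ℤ M := isNoetherian_of_isNoetherianRing_of_finite ℤ M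
  -- its rational part
  let ι : ℚ →ₗ[ℤ] ℂ := (algebraMap ℚ ℂ).toIntAlgHom.toLinearMap
  have hι : ∀ q : ℚ, ι q = (q : ℂ) := fun q => rfl
  let M' : Submodule ℤ ℚ := M.comap ι
  have hM' : M'.FG := by
    let j : M' →ₗ[ℤ] M :=
      { toFun := fun x => ⟨ι x.1, x.2⟩
        map_add' := fun x y => Subtype.ext (ι.map_add x.1 y.1)
        map_smul' := fun r x => Subtype.ext (ι.map_smul r x.1) }
    have hj : Function.Injective j := by
      intro x y hxy
      have := congrArg Subtype.val hxy
      apply Subtype.ext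
      exact (algebraMap ℚ ℂ).injective this
    haveI : IsNoetherian ℤ M' := isNoetherian_of_injective j hj
    exact Module.Finite.iff_fg.mp inferInstance
  obtain ⟨D, hD, hDM⟩ := exists_denominator_of_fg M' hM'
  refine ⟨D, hD, fun n => ?_⟩
  rcases Nat.eq_zero_or_pos n with h0 | h0
  · subst h0
    refine ⟨0, ?_⟩
    have := qc_zero_index ((D : ℂ) • f)
    rw [qc_apply] at this
    rw [this]
    simp
  · obtain ⟨q, hq⟩ := hf n
    have hmem : q ∈ M' := by
      show ι q ∈ M
      rw [hι]
      have h1 := qc_mem_range_firstCoeffMap f n h0 1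
      have h2 : (algebraMap ℚ ℂ) q = qc N n f := hq
      have h3 : ((q : ℚ) : ℂ) = (algebraMap ℚ ℂ) q := rfl
      rw [h3, h2]
      simpa only [OneMemClass.coe_one, Module.End.one_apply] using h1
    obtain ⟨m, hm⟩ := hDM q hmem
    refine ⟨m, ?_⟩
    have h4 : ModularFormClass.qCoeff (⇑((D : ℂ) • f)) n =
        (D : ℂ) * ModularFormClass.qCoeff f n :=
      qCoeff_smul' (D : ℂ) f n
    rw [h4, ← hq]
    have h5 : ((D : ℚ) : ℂ) * ((q : ℚ) : ℂ) = ((m : ℚ) : ℂ) := by
      rw [← hm]
      push_cast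
      rfl
    simpa using h5

end Fermat.Agent.S23
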