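import Mathlib

/-!
# S23, part D1: automorphisms of `ℂ` move every non-rational number
-/

set_option autoImplicit false
set_option linter.style.haveILetI false

open scoped Cardinal

namespace Fermat.Agent.S23

/-- Extension of isomorphisms: two embeddings of a countable domain into uncountable algebraically
closed fields of the same cardinality differ by an isomorphism of the big fields. -/
theorem exists_ringEquiv_extending {F : Type} [CommRing F] [Nontrivial F] [Countable F]
    {K L : Type} [Field K] [Field L] [IsAlgClosed K] [IsAlgClosed L] [Algebra F K] [Algebra F L]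
    [FaithfulSMul F K] [FaithfulSMul F L]
    (hK : ℵ₀ < #K) (hKL : #K = #L) :
    ∃ σ : K ≃+* L, ∀ r : F, σ (algebraMap F K r) = algebraMap F L r := by
  obtain ⟨ι, v, hv⟩ := exists_isTranscendenceBasis' (R := F) (A := K)
  obtain ⟨κ, w, hw⟩ := exists_isTranscendenceBasis' (R := F) (A := L)
  have hF : #F ≤ ℵ₀ := Cardinal.mk_le_aleph0
  have h1 : #K = #ι :=
    IsAlgClosed.cardinal_eq_cardinal_transcendence_basis_of_aleph0_lt' v hv hF hK
  have h2 : #L = #κ :=
    IsAlgClosed.cardinal_eq_cardinal_transcendence_basis_of_aleph0_lt' w hw hF (hKL ▸ hK)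
  have h3 : #ι = #κ := by rw [← h1, ← h2, hKL]
  obtain ⟨e⟩ := Cardinal.eq.mp h3
  letI := IsAlgClosed.isAlgClosure_of_transcendence_basis v hv
  letI := IsAlgClosed.isAlgClosure_of_transcendence_basis w hw
  let eA : Algebra.adjoin F (Set.range v) ≃ₐ[F] Algebra.adjoin F (Set.range w) :=
    hv.1.aevalEquiv.symm.trans ((MvPolynomial.renameEquiv F e).trans hw.1.aevalEquiv)
  refine ⟨IsAlgClosure.equivOfEquiv K L eA.toRingEquiv, fun r => ?_⟩
  have h4 : algebraMap F K r =
      algebraMap (Algebra.adjoin F (Set.range v)) K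
        (algebraMap F (Algebra.adjoin F (Set.range v)) r) := rfl
  rw [h4, IsAlgClosure.equivOfEquiv_algebraMap]
  have h5 : eA.toRingEquiv (algebraMap F (Algebra.adjoin F (Set.range v)) r) =
      algebraMap F (Algebra.adjoin F (Set.range w)) r := eA.commutes r
  rw [h5]
  rfl


theorem aleph0_lt_mk_complex : ℵ₀ < #ℂ := by
  rw [Cardinal.mk_complex]
  exact Cardinal.aleph0_lt_continuum

/-- Two embeddings of a countable domain into `ℂ` differ by an automorphism of `ℂ`. -/
theorem exists_ringEquiv_complex_extending {F : Type} [CommRing F] [Nontrivial F] [Countable F]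
    (i₁ i₂ : F →+* ℂ) (h₁ : Function.Injective i₁) (h₂ : Function.Injective i₂) :
    ∃ σ : ℂ ≃+* ℂ, ∀ r : F, σ (i₁ r) = i₂ r := by
  letI alg₁ : Algebra F ℂ := i₁.toAlgebra
  have f₁ : @FaithfulSMul F ℂ alg₁.toSMul :=
    (@faithfulSMul_iff_algebraMap_injective F ℂ _ _ alg₁).mpr h₁
  let alg₂ : Algebra F ℂ := i₂.toAlgebra
  have f₂ : @FaithfulSMul F ℂ alg₂.toSMul :=
    (@faithfulSMul_iff_algebraMap_injective F ℂ _ _ alg₂).mpr h₂
  exact @exists_ringEquiv_extending F _ _ _ ℂ ℂ _ _ _ _ alg₁ alg₂ f₁ f₂ aleph0_lt_mk_complex rfl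

theorem countable_polynomial_rat : Countable (Polynomial ℚ) :=
  Cardinal.mk_le_aleph0_iff.mp
    (le_trans Polynomial.cardinalMk_le_max (max_le Cardinal.mk_le_aleph0 le_rfl))

theorem countable_adjoinRoot_rat (f : Polynomial ℚ) : Countable (AdjoinRoot f) :=
  haveI := countable_polynomial_rat
  Function.Surjective.countable (AdjoinRoot.mk_surjective (g := f))

/-- **D1.** Every complex number which is not rational is moved by some automorphism of `ℂ`. -/
theorem exists_ringEquiv_ne (a : ℂ) (ha : a ∉ Set.range (algebraMap ℚ ℂ)) :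
    ∃ σ : ℂ ≃+* ℂ, σ a ≠ a := by
  by_cases halg : IsAlgebraic ℚ a
  · -- algebraic case: move `a` to another root of its minimal polynomial
    have hint : IsIntegral ℚ a := halg.isIntegral
    have hirr : Irreducible (minpoly ℚ a) := minpoly.irreducible hint
    haveI : Fact (Irreducible (minpoly ℚ a)) := ⟨hirr⟩
    have hsep : (minpoly ℚ a).Separable := hirr.separable
    have hdeg : 2 ≤ (minpoly ℚ a).natDegree := by
      by_contra hlt
      have h1 : (minpoly ℚ a).natDegree = 1 := by
        have := minpoly.natDegree_pos hint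
        omega
      have h2 : (minpoly ℚ a).degree = 1 := by
        rw [Polynomial.degree_eq_natDegree (minpoly.ne_zero hint), h1]
        rfl
      exact ha ((minpoly.degree_eq_one_iff).mp h2)
    have hcard : Fintype.card ((minpoly ℚ a).rootSet ℂ) = (minpoly ℚ a).natDegree :=
      Polynomial.card_rootSet_eq_natDegree hsep (IsAlgClosed.splits _)
    have haroot : a ∈ (minpoly ℚ a).rootSet ℂ := by
      rw [Polynomial.mem_rootSet]
      exact ⟨minpoly.ne_zero hint, minpoly.aeval ℚ a⟩
    obtain ⟨⟨a', ha'root⟩, hne⟩ : ∃ b : (minpoly ℚ a).rootSet ℂ, b ≠ ⟨a, haroot⟩ := by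
      have : 1 < Fintype.card ((minpoly ℚ a).rootSet ℂ) := by omega
      exact Fintype.exists_ne_of_one_lt_card this _
    have hne' : a' ≠ a := fun h => hne (Subtype.ext h)
    have ha'0 : Polynomial.eval₂ (algebraMap ℚ ℂ) a' (minpoly ℚ a) = 0 := by
      have := (Polynomial.mem_rootSet.mp ha'root).2
      rwa [Polynomial.aeval_def] at this
    have ha0 : Polynomial.eval₂ (algebraMap ℚ ℂ) a (minpoly ℚ a) = 0 := by
      have := minpoly.aeval ℚ a
      rwa [Polynomial.aeval_def] at this
    haveI := countable_adjoinRoot_rat (minpoly ℚ a)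
    obtain ⟨σ, hσ⟩ := exists_ringEquiv_complex_extending
      (AdjoinRoot.lift (algebraMap ℚ ℂ) a ha0) (AdjoinRoot.lift (algebraMap ℚ ℂ) a' ha'0)
      (RingHom.injective _) (RingHom.injective _)
    refine ⟨σ, ?_⟩
    have := hσ (AdjoinRoot.root (minpoly ℚ a))
    rw [AdjoinRoot.lift_root, AdjoinRoot.lift_root] at this
    rw [this]
    exact hne'
  · -- transcendental case: move `a` to `a + 1`
    have htr : Transcendental ℚ a := halg
    have htr' : Transcendental ℚ (a + 1) := by
      intro h
      apply halg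
      have h1 : IsAlgebraic ℚ ((a + 1) - 1) := h.sub isAlgebraic_one
      simpa using h1
    haveI := countable_polynomial_rat
    obtain ⟨σ, hσ⟩ := exists_ringEquiv_complex_extending
      (Polynomial.aeval (R := ℚ) a).toRingHom (Polynomial.aeval (R := ℚ) (a + 1)).toRingHom
      (transcendental_iff_injective.mp htr) (transcendental_iff_injective.mp htr')
    refine ⟨σ, ?_⟩
    have := hσ Polynomial.X
    simp only [AlgHom.toRingHom_eq_coe, RingHom.coe_coe, Polynomial.aeval_X] at this
    rw [this]
    simp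

end Fermat.Agent.S23
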