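import Mathlib
import Fermat.Agent.S23.AutC

/-!
# S23, part D: Galois descent for finite-dimensional spaces of sequences

A finite-dimensional complex vector space with a separating family of functionals `a n`
(`q`-expansion coefficients) which is stable under all automorphisms of `ℂ` acting on the
values of the `a n` is spanned by vectors on which all `a n` take rational values.
-/

set_option autoImplicit false
set_option linter.style.haveILetI false

namespace Fermat.Agent.S23

open Module

/-- A complex number fixed by all automorphisms of `ℂ` is rational. -/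
theorem mem_range_rat_of_forall_ringEquiv_eq (a : ℂ) (h : ∀ σ : ℂ ≃+* ℂ, σ a = a) :
    a ∈ Set.range (algebraMap ℚ ℂ) := by
  by_contra hna
  obtain ⟨σ, hσ⟩ := exists_ringEquiv_ne a hna
  exact hσ (h σ)

/-- A separating family of functionals on a finite-dimensional space spans the dual. -/
theorem span_eq_top_of_separating {V : Type*} [AddCommGroup V] [Module ℂ V]
    [FiniteDimensional ℂ V] {ι : Type*} (a : ι → Module.Dual ℂ V)
    (hsep : ∀ v, (∀ n, a n v = 0) → v = 0) :
    Submodule.span ℂ (Set.range a) = ⊤ := by
  have h1 : (Submodule.span ℂ (Set.range a)).dualCoannihilator = ⊥ := by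
    rw [eq_bot_iff]
    intro v hv
    rw [Submodule.mem_dualCoannihilator] at hv
    exact (Submodule.mem_bot ℂ).mpr (hsep v fun n => hv (a n) (Submodule.subset_span ⟨n, rfl⟩))
  have h2 := Subspace.dualCoannihilator_dualAnnihilator_eq (W := Submodule.span ℂ (Set.range a))
  rw [h1, Submodule.dualAnnihilator_bot] at h2
  exact h2.symm

/-- **Galois descent.** -/
theorem span_rational_eq_top {V : Type*} [AddCommGroup V] [Module ℂ V] [FiniteDimensional ℂ V]
    {ι : Type*} (a : ι → Module.Dual ℂ V) (hsep : ∀ v, (∀ n, a n v = 0) → v = 0)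
    (hgal : ∀ (v : V) (σ : ℂ ≃+* ℂ), ∃ w : V, ∀ n, a n w = σ (a n v)) :
    Submodule.span ℂ {v : V | ∀ n, a n v ∈ Set.range (algebraMap ℚ ℂ)} = ⊤ := by
  classical
  have hspan := span_eq_top_of_separating a hsep
  obtain ⟨b, hb_sub, hb_span, hb_li⟩ := exists_linearIndependent ℂ (Set.range a)
  let B : Basis b ℂ (Module.Dual ℂ V) :=
    Basis.mk hb_li (by rw [Subtype.range_coe, hb_span, hspan])
  have hB : ∀ j : b, B j = j.1 := fun j => by simp [B]
  haveI : Fintype b := FiniteDimensional.fintypeBasisIndex B
  let E : V ≃ₗ[ℂ] Module.Dual ℂ (Module.Dual ℂ V) := Module.evalEquiv ℂ V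
  let F : Basis b ℂ V := B.dualBasis.map E.symm
  have hF : ∀ i j : b, (j.1 : Module.Dual ℂ V) (F i) = if j = i then 1 else 0 := by
    intro i j
    have h1 : E (F i) = B.dualBasis i := by simp [F]
    have h2 : E (F i) (B j) = (B j) (F i) := rfl
    rw [← hB j, ← h2, h1, Basis.dualBasis_apply_self]
  -- vanishing of all basis functionals implies vanishing
  have hzero : ∀ v : V, (∀ j : b, (j.1 : Module.Dual ℂ V) v = 0) → v = 0 := by
    intro v hv
    apply hsep
    intro n
    have hall : ∀ φ ∈ Submodule.span ℂ (b : Set (Module.Dual ℂ V)), φ v = 0 := by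
      intro φ hφ
      induction hφ using Submodule.span_induction with
      | mem x hx => exact hv ⟨x, hx⟩
      | zero => rfl
      | add x y _ _ hx hy => rw [LinearMap.add_apply, hx, hy, add_zero]
      | smul c x _ hx => rw [LinearMap.smul_apply, hx, smul_zero]
    apply hall
    rw [hb_span, hspan]
    exact Submodule.mem_top
  -- the dual basis vectors are rational
  have hrat : ∀ i : b, ∀ n, a n (F i) ∈ Set.range (algebraMap ℚ ℂ) := by
    intro i n
    apply mem_range_rat_of_forall_ringEquiv_eq
    intro σ
    obtain ⟨w, hw⟩ := hgal (F i) σ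
    have hwF : w = F i := by
      rw [← sub_eq_zero]
      apply hzero
      intro j
      obtain ⟨m, hm⟩ := hb_sub j.2
      rw [map_sub, sub_eq_zero, ← hm, hw m, hm, hF i j]
      split_ifs <;> simp
    rw [← hw n, hwF]
  rw [eq_top_iff, ← F.span_eq]
  apply Submodule.span_mono
  rintro _ ⟨i, rfl⟩
  exact hrat i

end Fermat.Agent.S23
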