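import Mathlib
import Fermat.Prelude.Def_CuspForm_IntegralStructure
import Fermat.Agent.S23.Descent
import Fermat.Agent.S23.BoundedDenom
import Fermat.Agent.Lib.CuspFormFinDim
import Fermat.Agent.S22.Cocycle
import Fermat.Agent.S22.Period

/-!
# S23: integral structure from Galois stability

`S23 ⇐ (G) Galois stability of S₂(Γ₀(N))`, using Galois descent (D), bounded denominators (B)
and the finiteness of the Hecke algebra (S22).
-/

set_option autoImplicit false
set_option linter.style.haveILetI false

open CongruenceSubgroup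

namespace Fermat.Agent.S23

open Fermat.Agent.S49

/-- Galois stability of `S₂(Γ₀(N))`: the space of `q`-expansions of cusp forms is stable under
all automorphisms of `ℂ` acting on coefficients. -/
def GaloisStable (N : ℕ) : Prop :=
  ∀ (f : CuspForm (Gamma0 N) 2) (σ : ℂ ≃+* ℂ), ∃ g : CuspForm (Gamma0 N) 2,
    ∀ n, ModularFormClass.qCoeff (⇑g) n = σ (ModularFormClass.qCoeff (⇑f) n)

/-- The Hecke algebra of weight 2 is a finitely generated `ℤ`-module (S22). -/
theorem heckeAlgebra_two_finite (N : ℕ) [NeZero N] :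
    Module.Finite ℤ (CuspForm.heckeAlgebra N 2 (∅ : Set ℕ)) :=
  Fermat.Agent.S22.heckeAlgebra_finite_of_eichlerData
    (fun N _ k hk _ => ⟨Fermat.Agent.S22.eichlerData N k hk⟩) N 2 ∅

/-- **S23 from Galois stability.** -/
theorem hasIntegralStructure_of_galoisStable (N : ℕ) [NeZero N] (hG : GaloisStable N) :
    CuspForm.HasIntegralStructure N 2 := by
  haveI : FiniteDimensional ℂ (CuspForm (Gamma0 N) 2) :=
    Fermat.Agent.Lib.CuspFormFinDim.finiteDimensional N 2
  have hrat := span_rational_eq_top (V := CuspForm (Gamma0 N) 2) (fun n => qc N n)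
    (fun v hv => cuspForm_ext_qc (fun n => by rw [hv n, map_zero]))
    (fun v σ => hG v σ)
  unfold CuspForm.HasIntegralStructure
  rw [eq_top_iff, ← hrat]
  apply Submodule.span_le.mpr
  intro f hf
  obtain ⟨D, hD, hDf⟩ := exists_nat_smul_int N (heckeAlgebra_two_finite N) f hf
  have hmem : (D : ℂ) • f ∈ (CuspForm.intLattice N 2 :
      Set (CuspForm (Gamma0 N) 2)) :=
    Submodule.subset_span hDf
  have hDC : (D : ℂ) ≠ 0 := by exact_mod_cast hD
  have hfe : f = (D : ℂ)⁻¹ • ((D : ℂ) • f) := by
    rw [smul_smul, inv_mul_cancel₀ hDC, one_smul]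
  rw [SetLike.mem_coe, hfe]
  exact Submodule.smul_mem _ _ (Submodule.subset_span hmem)

end Fermat.Agent.S23
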